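import Fermat.Agent.Corollaries.GW.Two

/-!
# The local-global principle for `n`-th powers in number fields (Grunwald - Wang)

`K` is a number field.

* `grunwald_wang`: if `a` is an `n`-th power modulo a set of prime ideals of density one, then `a` is an
  `n`-th power in `K`, or `a = (2 + c) ^ (n / 2) b ^ n` with `c = η + η⁻¹ ∈ K`, `η` a primitive `2 ^ s`-th
  root of unity, `s ≥ 2`, `2 ^ (s + 1) ∣ n`, and none of `-1`, `2 + c`, `-(2 + c)` is a square in `K`;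
* `exists_pow_of_not_dvd`: `a` is an `n`-th power if `8 ∤ n`; `exists_pow_of_isSquare`: or if `-1` is a
  square in `K`.
-/

set_option autoImplicit false

namespace Fermat.Agent.Cor.GW

open NumberField IsDedekindDomain Fermat.Agent.Cor.ChebK Polynomial

/-- `c = η + η⁻¹` for a primitive `2 ^ s`-th root of unity `η`. -/
def IsTwoCos {F : Type*} [Field F] (s : ℕ) (c : F) : Prop :=
  ∃ η : AlgebraicClosure F, IsPrimitiveRoot η (2 ^ s) ∧
    algebraMap F (AlgebraicClosure F) c = η + η⁻¹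

/-! ### The special element -/

section Special

variable {F E : Type*} [Field F] [Field E] [Algebra F E] {s n : ℕ} {η : E} {c : F}

/-- The powers of `η` are `x + y η`. -/
theorem exists_comb (hη0 : η ≠ 0) (hc : algebraMap F E c = η + η⁻¹) (k : ℕ) :
    ∃ x y : F, η ^ k = algebraMap F E x + algebraMap F E y * η ∧
      η⁻¹ ^ k = algebraMap F E x + algebraMap F E y * η⁻¹ := by
  induction k with
  | zero => exact ⟨1, 0, by simp, by simp⟩
  | succ k ih =>
    obtain ⟨x, y, h1, h2⟩ := ih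
    have hm : η * η⁻¹ = 1 := mul_inv_cancel₀ hη0
    refine ⟨-y, x + y * c, ?_, ?_⟩
    · rw [pow_succ, h1, map_neg, map_add, map_mul, hc]
      linear_combination -algebraMap F E y * hm
    · rw [pow_succ, h2, map_neg, map_add, map_mul, hc]
      linear_combination -algebraMap F E y * hm

/-- If `-1` is a square in `F` and `η + η⁻¹ ∈ F`, then `η ∈ F`. -/
theorem exists_eta (hs : 2 ≤ s) (hη : IsPrimitiveRoot η (2 ^ s))
    (hc : algebraMap F E c = η + η⁻¹) (h : IsSquare (-1 : F)) : ∃ e : F, algebraMap F E e = η := by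
  obtain ⟨t, rfl⟩ := Nat.exists_eq_add_of_le' hs
  have hη0 : η ≠ 0 := hη.ne_zero (pow_ne_zero _ two_ne_zero)
  have h1 : η ^ 2 ^ (t + 1) = -1 := pow_eq_neg_one hη
  obtain ⟨i, hi⟩ := h
  have h2 : (η ^ 2 ^ t) ^ 2 = (algebraMap F E i) ^ 2 := by
    rw [← pow_mul, ← pow_succ, h1, ← map_pow, pow_two i, ← hi, map_neg, map_one]
  obtain ⟨j, hj⟩ : ∃ j : F, η ^ 2 ^ t = algebraMap F E j := by
    rcases sq_eq_sq_iff_eq_or_eq_neg.mp h2 with h3 | h3
    · exact ⟨i, h3⟩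
    · exact ⟨-i, by rw [h3, map_neg]⟩
  obtain ⟨x, y, hx, hy⟩ := exists_comb hη0 hc (2 ^ t)
  have hy0 : y ≠ 0 := by
    rintro rfl
    rw [map_zero, zero_mul, add_zero] at hx hy
    have h4 : η ^ 2 ^ (t + 1) = 1 := by
      have h5 : η⁻¹ ^ 2 ^ t * η ^ 2 ^ t = 1 := by
        rw [← mul_pow, inv_mul_cancel₀ hη0, one_pow]
      rw [hy, ← hx] at h5
      rw [pow_succ, pow_mul, pow_two]
      exact h5
    have h6 := hη.dvd_of_pow_eq_one _ h4
    have h7 := Nat.le_of_dvd (pow_pos two_pos _) h6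
    have h8 : 2 ^ (t + 1) < 2 ^ (t + 2) := Nat.pow_lt_pow_right (by norm_num) (by omega)
    omega
  refine ⟨(j - x) / y, ?_⟩
  have hy0' : algebraMap F E y ≠ 0 := by
    rwa [Ne, map_eq_zero]
  rw [map_div₀, map_sub, ← hj, hx, add_sub_cancel_left, mul_div_cancel_left₀ _ hy0']

/-- **The special element is an `n`-th power** if one of `-1`, `2 + c`, `-(2 + c)` is a square. -/
theorem exists_pow_special (hs : 2 ≤ s) (hn : 2 ^ (s + 1) ∣ n) (hη : IsPrimitiveRoot η (2 ^ s))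
    (hc : algebraMap F E c = η + η⁻¹)
    (h : IsSquare (-1 : F) ∨ IsSquare (2 + c) ∨ IsSquare (-(2 + c))) :
    ∃ d : F, d ^ n = (2 + c) ^ (n / 2) := by
  obtain ⟨m, rfl⟩ := hn
  have hhalf : 2 ^ (s + 1) * m / 2 = 2 ^ s * m := by
    rw [pow_succ, mul_right_comm, Nat.mul_div_cancel _ two_pos]
  have hdouble : 2 ^ (s + 1) * m = 2 * (2 ^ s * m) := by
    rw [pow_succ]
    ring
  rw [hhalf, hdouble]
  rcases h with h | ⟨d, hd⟩ | ⟨d, hd⟩
  · obtain ⟨e, rfl⟩ := exists_eta hs hη hc h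
    refine ⟨1 + e, ?_⟩
    have hη0 : algebraMap F E e ≠ 0 := hη.ne_zero (pow_ne_zero _ two_ne_zero)
    have he0 : e ≠ 0 := by rwa [Ne, map_eq_zero] at hη0
    have hce : c = e + e⁻¹ := (algebraMap F E).injective (by rw [hc, map_add, map_inv₀])
    have h1 : (1 + e) ^ 2 = (2 + c) * e := by
      rw [hce]
      field_simp
      ring
    have h2 : e ^ 2 ^ s = 1 := (algebraMap F E).injective (by
      rw [map_pow, hη.pow_eq_one, map_one])
    rw [pow_mul, h1, mul_pow, pow_mul e, h2, one_pow, mul_one]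
  · refine ⟨d, ?_⟩
    rw [pow_mul, pow_two, ← hd]
  · refine ⟨d, ?_⟩
    have heven : Even (2 ^ s * m) := by
      refine Even.mul_right ?_ m
      exact (Nat.even_pow.mpr ⟨even_two, by omega⟩)
    rw [pow_mul, pow_two, ← hd, heven.neg_pow]

end Special

/-! ### The main theorem -/

universe u

variable {K : Type u} [Field K] [NumberField K] {n : ℕ} {a : 𝓞 K}

omit [NumberField K] in
theorem PowMod.of_dvd {m : ℕ} (hmn : m ∣ n) {v : HeightOneSpectrum (𝓞 K)} (h : PowMod n a v) :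
    PowMod m a v := by
  obtain ⟨k, rfl⟩ := hmn
  obtain ⟨x, hx⟩ := h
  exact ⟨x ^ k, by rwa [← pow_mul, mul_comm k m]⟩

/-- A subset of a set of density `0`. -/
theorem hasDensity_zero_mono {P Q : Set (HeightOneSpectrum (𝓞 K))} (h : P ⊆ Q)
    (hQ : HasDensity Q 0) : HasDensity P 0 := by
  refine tendsto_of_tendsto_of_tendsto_of_le_of_le' (hasDensity_empty (K := K)) hQ ?_ ?_
  · filter_upwards [self_mem_nhdsWithin, FrobDensity.tendsto_log_atTop.eventually_gt_atTop 0] with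
      s h1 h2
    exact div_le_div_of_nonneg_right (DS_mono (Set.empty_subset P) h1) h2.le
  · filter_upwards [self_mem_nhdsWithin, FrobDensity.tendsto_log_atTop.eventually_gt_atTop 0] with
      s h1 h2
    exact div_le_div_of_nonneg_right (DS_mono h h1) h2.le

theorem hasDensity_of_dvd {m : ℕ} (hmn : m ∣ n)
    (h : HasDensity {v : HeightOneSpectrum (𝓞 K) | ¬ PowMod n a v} 0) :
    HasDensity {v : HeightOneSpectrum (𝓞 K) | ¬ PowMod m a v} 0 :=
  hasDensity_zero_mono (P := {v | ¬ PowMod m a v}) (fun _ hv h' => hv (PowMod.of_dvd hmn h')) h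

/-- The radical extension for a divisor. -/
theorem exists_fixRoot (hn : 0 < n) (ha : a ≠ 0)
    (h : HasDensity {v : HeightOneSpectrum (𝓞 K) | ¬ PowMod n a v} 0) :
    ∃ (L : Type u) (_ : Field L) (_ : NumberField L) (_ : Algebra K L) (_ : IsGalois K L)
      (ζ : L), IsPrimitiveRoot ζ n ∧ FixRoot K n (algebraMap K L a) := by
  obtain ⟨L, hL1, hL2, hL3, hL4, α, ζ, hα, hζ⟩ := exists_field K hn (a : K)
  exact ⟨L, hL1, hL2, hL3, hL4, ζ, hζ, fun τ => exists_root_fixed hn ha hα hζ h τ⟩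

/-- **Prime powers.** -/
theorem exists_pow_of_prime_pow {ℓ k : ℕ} (hℓ : ℓ.Prime) (hℓ2 : ℓ ≠ 2) (ha : a ≠ 0)
    (h : HasDensity {v : HeightOneSpectrum (𝓞 K) | ¬ PowMod (ℓ ^ k) a v} 0) :
    ∃ b : K, b ^ ℓ ^ k = a := by
  obtain ⟨L, hL1, hL2, hL3, hL4, ζ, hζ, hfix⟩ := exists_fixRoot (pow_pos hℓ.pos k) ha h
  have : NeZero (ℓ ^ k) := ⟨pow_ne_zero _ hℓ.ne_zero⟩
  have hcyc : IsCyclic (ZMod (ℓ ^ k))ˣ := ZMod.isCyclic_units_of_prime_pow ℓ hℓ hℓ2 k
  have ha' : algebraMap K L a ≠ 0 := by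
    rw [Ne, map_eq_zero]
    exact_mod_cast ha
  have hfin : FiniteDimensional K L := Module.Finite.of_restrictScalars_finite ℚ K L
  obtain ⟨b, hb⟩ := exists_pow_of_isCyclic hζ hfix ha' inferInstance
  exact ⟨b, (algebraMap K L).injective (by rw [map_pow, hb])⟩

/-- **Odd exponents.** -/
theorem exists_pow_of_odd (ha : a ≠ 0) {m : ℕ} (hm : Odd m)
    (h : HasDensity {v : HeightOneSpectrum (𝓞 K) | ¬ PowMod m a v} 0) :
    ∃ b : K, b ^ m = a := by
  have ha' : (a : K) ≠ 0 := by exact_mod_cast ha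
  induction m using Nat.recOnPrimeCoprime with
  | zero => exact absurd hm (by decide)
  | prime_pow ℓ k hℓ =>
    by_cases hk : k = 0
    · subst hk
      exact ⟨a, by rw [pow_zero, pow_one]⟩
    · refine exists_pow_of_prime_pow hℓ ?_ ha h
      rintro rfl
      exact (Nat.not_even_iff_odd.mpr hm) (Nat.even_pow.mpr ⟨even_two, hk⟩)
  | coprime m₁ m₂ h1 h2 hco ih1 ih2 =>
    rw [Nat.odd_mul] at hm
    obtain ⟨b, hb⟩ := ih1 hm.1 (hasDensity_of_dvd (dvd_mul_right _ _) h)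
    obtain ⟨c, hc⟩ := ih2 hm.2 (hasDensity_of_dvd (dvd_mul_left _ _) h)
    exact exists_pow_of_coprime hco ha' (by omega) (by omega) hb hc

/-- **Powers of two.** -/
theorem exists_two_pow (ha : a ≠ 0) {r : ℕ}
    (h : HasDensity {v : HeightOneSpectrum (𝓞 K) | ¬ PowMod (2 ^ r) a v} 0) :
    (∃ b : K, b ^ 2 ^ r = a) ∨ ∃ s : ℕ, 2 ≤ s ∧ s < r ∧ ∃ c b : K, IsTwoCos s c ∧
      (2 + c) ^ 2 ^ (r - 1) * b ^ 2 ^ r = a := by
  obtain ⟨L, hL1, hL2, hL3, hL4, ζ, hζ, hfix⟩ := exists_fixRoot (pow_pos two_pos r) ha h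
  have ha' : algebraMap K L a ≠ 0 := by
    rw [Ne, map_eq_zero]
    exact_mod_cast ha
  have hfin : FiniteDimensional K L := Module.Finite.of_restrictScalars_finite ℚ K L
  have hinj := (algebraMap K L).injective
  rcases two_pow hζ hfix ha' with ⟨b, hb⟩ | ⟨s, hs, hsr, η, c, b, hη, hc, hb⟩
  · exact Or.inl ⟨b, hinj (by rw [map_pow, hb])⟩
  · refine Or.inr ⟨s, hs, hsr, c, b, ?_, hinj (by rw [map_mul, map_pow, map_pow, hb])⟩
    let i : L →ₐ[K] AlgebraicClosure K := IsAlgClosed.lift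
    refine ⟨i η, hη.map_of_injective i.injective, ?_⟩
    rw [← i.commutes, hc, map_add, map_inv₀]

/-- `2 + η + η⁻¹ ≠ 0`. -/
theorem IsTwoCos.ne_zero {F : Type*} [Field F] {s : ℕ} {c : F} (hs : 2 ≤ s)
    (hc : IsTwoCos s c) : 2 + c ≠ 0 := by
  obtain ⟨η, hη, hc⟩ := hc
  intro h0
  have hη0 : η ≠ 0 := hη.ne_zero (pow_ne_zero _ two_ne_zero)
  have h1 : (1 + η) ^ 2 = 0 := by
    have h2 := congrArg (algebraMap F (AlgebraicClosure F)) h0
    rw [map_add, hc, map_ofNat, map_zero] at h2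
    have h3 : (1 + η) ^ 2 = (2 + (η + η⁻¹)) * η := by
      field_simp
      ring
    rw [h3, h2, zero_mul]
  have h2 : η = -1 := by linear_combination (pow_eq_zero_iff two_ne_zero).mp h1
  have h3 : η ^ 2 = 1 := by rw [h2]; norm_num
  have h4 := Nat.le_of_dvd two_pos (hη.dvd_of_pow_eq_one _ h3)
  have h5 : 2 ^ 2 ≤ 2 ^ s := Nat.pow_le_pow_right two_pos hs
  omega

/-- **The local-global principle for `n`-th powers** (Trost, Ankeny - Rogers, Grunwald - Wang). Let `a` be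
an integer of the number field `K` which is an `n`-th power modulo a set of prime ideals of density one.
Then `a` is an `n`-th power in `K`, or `8 ∣ n` and `a = (2 + c) ^ (n / 2) b ^ n` with `b ∈ K` and
`c = η + η⁻¹ ∈ K` for a primitive `2 ^ s`-th root of unity `η`, `2 ≤ s`, `2 ^ (s + 1) ∣ n`, such that none
of `-1`, `2 + c`, `-(2 + c)` is a square in `K`. -/
theorem grunwald_wang (hn : 0 < n)
    (h : HasDensity {v : HeightOneSpectrum (𝓞 K) | ¬ PowMod n a v} 0) :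
    (∃ b : K, b ^ n = a) ∨ ∃ s : ℕ, 2 ≤ s ∧ 2 ^ (s + 1) ∣ n ∧ ∃ c b : K, IsTwoCos s c ∧
      ¬ IsSquare (-1 : K) ∧ ¬ IsSquare (2 + c) ∧ ¬ IsSquare (-(2 + c)) ∧
      (2 + c) ^ (n / 2) * b ^ n = a := by
  by_cases ha : a = 0
  · exact Or.inl ⟨0, by rw [ha, zero_pow hn.ne']; rfl⟩
  have ha' : (a : K) ≠ 0 := by exact_mod_cast ha
  obtain ⟨r, m, hm, rfl⟩ := Nat.exists_eq_two_pow_mul_odd hn.ne'
  obtain ⟨d, hd⟩ := exists_pow_of_odd ha hm (hasDensity_of_dvd (dvd_mul_left _ _) h)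
  have hcop : (2 ^ r).Coprime m := (Nat.coprime_two_left.mpr hm).pow_left r
  rcases exists_two_pow ha (hasDensity_of_dvd (dvd_mul_right _ _) h) with
    ⟨b, hb⟩ | ⟨s, hs, hsr, c, b, hc, hb⟩
  · exact Or.inl (exists_pow_of_coprime hcop ha' (pow_pos two_pos _) hm.pos hb hd)
  · have hu := hc.ne_zero hs
    have hdvd : 2 ^ (s + 1) ∣ 2 ^ r * m := (pow_dvd_pow 2 (by omega)).mul_right m
    have hhalf : 2 ^ r * m / 2 = 2 ^ (r - 1) * m := by
      obtain ⟨t, rfl⟩ : ∃ t, r = t + 1 := ⟨r - 1, by omega⟩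
      rw [pow_succ, mul_right_comm, Nat.mul_div_cancel _ two_pos, Nat.add_sub_cancel]
    have hval : ∃ e : K, (2 + c) ^ (2 ^ r * m / 2) * e ^ (2 ^ r * m) = a := by
      have hU : (2 + c) ^ (2 ^ (r - 1) * m) ≠ 0 := pow_ne_zero _ hu
      obtain ⟨t, ht⟩ := hm
      have h1 : (b / (2 + c) ^ t) ^ 2 ^ r = a / (2 + c) ^ (2 ^ (r - 1) * m) := by
        have h3 : (2 + c) ^ (2 ^ (r - 1) * m) = (2 + c) ^ 2 ^ (r - 1) * ((2 + c) ^ t) ^ 2 ^ r := by
          rw [← pow_mul, ← pow_add, ht]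
          congr 1
          have h4 : 2 ^ r = 2 ^ (r - 1) * 2 := by
            rw [← pow_succ]
            congr 1
            omega
          rw [h4]
          ring
        rw [div_pow, h3, ← hb, mul_div_mul_left _ _ (pow_ne_zero _ hu)]
      have h2 : (d / (2 + c) ^ 2 ^ (r - 1)) ^ m = a / (2 + c) ^ (2 ^ (r - 1) * m) := by
        rw [div_pow, hd, ← pow_mul]
      obtain ⟨e, he⟩ := exists_pow_of_coprime hcop (div_ne_zero ha' hU) (pow_pos two_pos _)
        (by omega) h1 h2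
      exact ⟨e, by rw [he, hhalf, mul_div_cancel₀ _ hU]⟩
    obtain ⟨e, he⟩ := hval
    by_cases hsq : IsSquare (-1 : K) ∨ IsSquare (2 + c) ∨ IsSquare (-(2 + c))
    · left
      obtain ⟨η, hη, hc'⟩ := hc
      obtain ⟨f, hf⟩ := exists_pow_special hs hdvd hη hc' hsq
      exact ⟨f * e, by rw [mul_pow, hf, he]⟩
    · push Not at hsq
      exact Or.inr ⟨s, hs, hdvd, c, e, hc, hsq.1, hsq.2.1, hsq.2.2, he⟩

/-- **If `8 ∤ n`** and `a` is an `n`-th power modulo a set of prime ideals of density one, then `a` is an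
`n`-th power in `K`. -/
theorem exists_pow_of_not_dvd (hn : 0 < n) (h8 : ¬ 8 ∣ n)
    (h : HasDensity {v : HeightOneSpectrum (𝓞 K) | ¬ PowMod n a v} 0) : ∃ b : K, b ^ n = a := by
  rcases grunwald_wang hn h with h | ⟨s, hs, hdvd, -⟩
  · exact h
  · exact absurd ((pow_dvd_pow 2 (by omega : 3 ≤ s + 1)).trans hdvd) h8

/-- **If `-1` is a square in `K`**, the same for every `n`. -/
theorem exists_pow_of_isSquare (hn : 0 < n) (hK : IsSquare (-1 : K))
    (h : HasDensity {v : HeightOneSpectrum (𝓞 K) | ¬ PowMod n a v} 0) : ∃ b : K, b ^ n = a := by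
  rcases grunwald_wang hn h with h | ⟨s, -, -, c, b, -, h1, -⟩
  · exact h
  · exact absurd hK h1

/-- In all cases (the special case included) `a ^ 2` is an `n`-th power in `K`. -/
theorem exists_pow_sq (hn : 0 < n)
    (h : HasDensity {v : HeightOneSpectrum (𝓞 K) | ¬ PowMod n a v} 0) :
    ∃ b : K, b ^ n = (a : K) ^ 2 := by
  rcases grunwald_wang hn h with ⟨b, hb⟩ | ⟨s, hs, ⟨m, rfl⟩, c, b, -, -, -, -, hb⟩
  · exact ⟨b ^ 2, by rw [← hb, pow_right_comm]⟩
  · refine ⟨(2 + c) * b ^ 2, ?_⟩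
    have h2 : 2 ^ (s + 1) * m / 2 * 2 = 2 ^ (s + 1) * m :=
      Nat.div_mul_cancel ((dvd_pow_self 2 (by omega)).mul_right m)
    rw [← hb, mul_pow, mul_pow, ← pow_mul (2 + c), h2, pow_right_comm]

end Fermat.Agent.Cor.GW
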