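import Fermat.Agent.Corollaries.ChebK.Main

/-!
# Powers modulo almost all prime ideals and the Galois action on the radicals

`K` is a number field, `a` a non-zero integer of `K`, `L / K` a finite Galois extension which contains
an `n`-th root of `a` and the `n`-th roots of unity.

* `exists_root_fixed`: if `a` is an `n`-th power modulo `v` for a set of places `v` of `K` of density one,
  then every element of `Gal(L/K)` fixes an `n`-th root of `a`.
-/

set_option autoImplicit false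

namespace Fermat.Agent.Cor.GW

open NumberField IsDedekindDomain Fermat.Agent.Cor.ChebK Polynomial

section Defs

variable {K : Type*} [Field K] [NumberField K]

/-- `a` is an `n`-th power modulo the prime ideal `v`. -/
def PowMod (n : ℕ) (a : 𝓞 K) (v : HeightOneSpectrum (𝓞 K)) : Prop :=
  ∃ x : 𝓞 K, x ^ n - a ∈ v.asIdeal

/-- Only finitely many prime ideals contain a given non-zero integer. -/
theorem finite_mem {x : 𝓞 K} (hx : x ≠ 0) :
    {v : HeightOneSpectrum (𝓞 K) | x ∈ v.asIdeal}.Finite := by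
  have h0 : Ideal.span {x} ≠ 0 := by
    rw [Ne, Ideal.zero_eq_bot, Ideal.span_singleton_eq_bot]
    exact hx
  refine (Ideal.finite_factors h0).subset fun v hv => ?_
  exact Ideal.dvd_span_singleton.mpr hv

/-- `x ^ N(v) = x` modulo `v`. -/
theorem pow_card_sub_mem (v : HeightOneSpectrum (𝓞 K)) (x : 𝓞 K) :
    x ^ Nat.card (𝓞 K ⧸ v.asIdeal) - x ∈ v.asIdeal := by
  have := v.isMaximal
  let _ := Ideal.Quotient.field v.asIdeal
  have : Finite (𝓞 K ⧸ v.asIdeal) := Ring.HasFiniteQuotients.finiteQuotient v.ne_bot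
  let _ : Fintype (𝓞 K ⧸ v.asIdeal) := Fintype.ofFinite _
  rw [← Ideal.Quotient.eq_zero_iff_mem, map_sub, map_pow, Nat.card_eq_fintype_card,
    FiniteField.pow_card, sub_self]

end Defs

/-! ### Roots of unity modulo a prime ideal -/

/-- A root of unity `ξ ≠ 1` of order dividing `n` is not congruent to `1` modulo a prime ideal which
does not contain `n`. -/
theorem eq_one_of_sub_one_mem {R : Type*} [CommRing R] [IsDomain R] {n : ℕ} {ξ : R}
    (hξ : ξ ^ n = 1) {I : Ideal R} (h : ξ - 1 ∈ I) (hn : (n : R) ∉ I) : ξ = 1 := by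
  by_contra hne
  apply hn
  have h1 : (∑ i ∈ Finset.range n, ξ ^ i) * (ξ - 1) = 0 := by
    rw [geom_sum_mul, hξ, sub_self]
  have h2 : ∑ i ∈ Finset.range n, ξ ^ i = 0 :=
    (mul_eq_zero.mp h1).resolve_right (sub_ne_zero.mpr hne)
  have h3 := congrArg (Ideal.Quotient.mk I) h2
  have h4 : Ideal.Quotient.mk I ξ = 1 := by
    rw [← sub_eq_zero, ← map_one (Ideal.Quotient.mk I), ← map_sub]
    exact Ideal.Quotient.eq_zero_iff_mem.mpr h
  rw [map_sum, map_zero] at h3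
  simp only [map_pow, h4, one_pow, Finset.sum_const, Finset.card_range, nsmul_eq_mul,
    mul_one] at h3
  rw [← map_natCast (Ideal.Quotient.mk I)] at h3
  exact Ideal.Quotient.eq_zero_iff_mem.mp h3

variable {K L : Type*} [Field K] [NumberField K] [Field L] [NumberField L] [Algebra K L]

omit [NumberField K] [NumberField L] in
/-- `x ∈ v` if and only if `x ∈ w`, for `w` above `v`. -/
theorem mem_under {v : HeightOneSpectrum (𝓞 K)} {w : HeightOneSpectrum (𝓞 L)}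
    (h : w.under (𝓞 K) = v) (x : 𝓞 K) :
    algebraMap (𝓞 K) (𝓞 L) x ∈ w.asIdeal ↔ x ∈ v.asIdeal := by
  rw [← h]
  exact Iff.rfl

variable [IsGalois K L]

/-- The arithmetic part: a Frobenius element at `w` fixes an `n`-th root of `a`, if `a` is an `n`-th
power modulo `v`. -/
theorem exists_root_of_frob {n : ℕ} (hn : 0 < n) {a : 𝓞 K} {α ζ : 𝓞 L}
    (hα : α ^ n = algebraMap (𝓞 K) (𝓞 L) a) (hζ : IsPrimitiveRoot ζ n)
    {v : HeightOneSpectrum (𝓞 K)} {w : HeightOneSpectrum (𝓞 L)} (hw : w.under (𝓞 K) = v)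
    (hv : (n : 𝓞 K) * a ∉ v.asIdeal) (hpow : PowMod n a v) {τ : L ≃ₐ[K] L}
    (hτ : IsArithFrobAt (𝓞 K) τ w.asIdeal) : ∃ β : 𝓞 L, β ^ n = algebraMap (𝓞 K) (𝓞 L) a ∧
      τ • β = β := by
  have hnv : (n : 𝓞 K) ∉ v.asIdeal := fun h => hv (Ideal.mul_mem_right _ _ h)
  have hav : a ∉ v.asIdeal := fun h => hv (Ideal.mul_mem_left _ _ h)
  have hnw : (n : 𝓞 L) ∉ w.asIdeal := fun h => hnv ((mem_under hw _).mp (by rwa [map_natCast]))
  have haw : algebraMap (𝓞 K) (𝓞 L) a ∉ w.asIdeal := fun h => hav ((mem_under hw _).mp h)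
  obtain ⟨x, hx⟩ := hpow
  have hx' : algebraMap (𝓞 K) (𝓞 L) x ^ n - α ^ n ∈ w.asIdeal := by
    rw [hα, ← map_pow, ← map_sub]
    exact (mem_under hw _).mpr hx
  rw [hζ.pow_sub_pow_eq_prod_sub_mul _ _ hn] at hx'
  obtain ⟨ξ, hξ, hmem⟩ := (Ideal.IsPrime.prod_mem_iff (hp := w.isPrime)).mp hx'
  have hξn : ξ ^ n = 1 := (mem_nthRootsFinset hn (1 : 𝓞 L)).mp hξ
  set β : 𝓞 L := ξ * α with hβ
  have hβn : β ^ n = algebraMap (𝓞 K) (𝓞 L) a := by
    rw [hβ, mul_pow, hξn, one_mul, hα]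
  refine ⟨β, hβn, ?_⟩
  -- `τ β ≡ β`
  have hcard : Nat.card (𝓞 K ⧸ w.asIdeal.under (𝓞 K)) = Nat.card (𝓞 K ⧸ v.asIdeal) := by
    rw [← hw]
    rfl
  have h1 : τ • β - β ^ Nat.card (𝓞 K ⧸ v.asIdeal) ∈ w.asIdeal := by
    rw [← hcard]
    exact hτ β
  set N := Nat.card (𝓞 K ⧸ v.asIdeal) with hN
  have h2 : β ^ N - algebraMap (𝓞 K) (𝓞 L) x ^ N ∈ w.asIdeal := by
    obtain ⟨c, hc⟩ := sub_dvd_pow_sub_pow β (algebraMap (𝓞 K) (𝓞 L) x) N
    rw [hc]
    refine Ideal.mul_mem_right _ _ ?_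
    rw [← neg_mem_iff, neg_sub]
    exact hmem
  have h3 : algebraMap (𝓞 K) (𝓞 L) x ^ N - algebraMap (𝓞 K) (𝓞 L) x ∈ w.asIdeal := by
    rw [← map_pow, ← map_sub]
    exact (mem_under hw _).mpr (pow_card_sub_mem v x)
  have h4 : τ • β - β ∈ w.asIdeal := by
    have e : τ • β - β = (τ • β - β ^ N) + (β ^ N - algebraMap (𝓞 K) (𝓞 L) x ^ N) +
        (algebraMap (𝓞 K) (𝓞 L) x ^ N - algebraMap (𝓞 K) (𝓞 L) x) +
        (algebraMap (𝓞 K) (𝓞 L) x - β) := by ring
    rw [e]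
    exact add_mem (add_mem (add_mem h1 h2) h3) hmem
  -- `τ β` is a root of unity times `β`
  have h5 : (τ • β) ^ n - β ^ n = 0 := by
    rw [← smul_pow', hβn, sub_eq_zero]
    exact smul_algebraMap τ a
  rw [hζ.pow_sub_pow_eq_prod_sub_mul _ _ hn, Finset.prod_eq_zero_iff] at h5
  obtain ⟨ξ', hξ', h6⟩ := h5
  have hξ'n : ξ' ^ n = 1 := (mem_nthRootsFinset hn (1 : 𝓞 L)).mp hξ'
  rw [sub_eq_zero] at h6
  have h7 : (ξ' - 1) * β ∈ w.asIdeal := by
    have e : (ξ' - 1) * β = τ • β - β := by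
      rw [h6]
      ring
    rw [e]
    exact h4
  have h8 : β ∉ w.asIdeal := fun h => haw (hβn ▸ Ideal.pow_mem_of_mem _ h n hn)
  have h9 := eq_one_of_sub_one_mem hξ'n ((w.isPrime.mem_or_mem h7).resolve_right h8) hnw
  rw [h6, h9, one_mul]

/-- **The Galois action on the `n`-th roots of `a`.** If `a` is an `n`-th power modulo `v` for a set of
places of density one, then every element of the Galois group fixes an `n`-th root of `a`. -/
theorem exists_root_fixed_int {n : ℕ} (hn : 0 < n) {a : 𝓞 K} (ha : a ≠ 0) {α ζ : 𝓞 L}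
    (hα : α ^ n = algebraMap (𝓞 K) (𝓞 L) a) (hζ : IsPrimitiveRoot ζ n)
    (h : HasDensity {v | ¬ PowMod n a v} 0) (τ : L ≃ₐ[K] L) :
    ∃ β : 𝓞 L, β ^ n = algebraMap (𝓞 K) (𝓞 L) a ∧ τ • β = β := by
  have hna : (n : 𝓞 K) * a ≠ 0 := mul_ne_zero (by exact_mod_cast hn.ne') ha
  have h1 := ((chebotarev_class (K := K) τ).infinite_diff (class_density_pos τ) h).sdiff
    (finite_mem hna)
  obtain ⟨v, ⟨⟨-, hv1⟩, hv2⟩, hv3⟩ := h1.nonempty
  obtain ⟨w, hw, hF⟩ := hv1.exists_eq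
  have hp : PowMod n a v := by
    by_contra hcon
    exact hv2 hcon
  exact exists_root_of_frob hn hα hζ hw hv3 hp hF

/-- The same for elements of `L`. -/
theorem exists_root_fixed {n : ℕ} (hn : 0 < n) {a : 𝓞 K} (ha : a ≠ 0) {α ζ : L}
    (hα : α ^ n = algebraMap K L a) (hζ : IsPrimitiveRoot ζ n)
    (h : HasDensity {v | ¬ PowMod n a v} 0) (τ : L ≃ₐ[K] L) :
    ∃ β : L, β ^ n = algebraMap K L a ∧ τ β = β := by
  have hα1 : IsIntegral ℤ α := by
    refine IsIntegral.of_pow hn ?_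
    rw [hα]
    exact (RingOfIntegers.isIntegral_coe a).map (algebraMap K L).toIntAlgHom
  have hζ1 : IsIntegral ℤ ζ := hζ.isIntegral hn
  have hinj : Function.Injective (algebraMap (𝓞 L) L) := RingOfIntegers.coe_injective
  have e1 : algebraMap (𝓞 L) L (algebraMap (𝓞 K) (𝓞 L) a) = algebraMap K L a := by
    rw [← IsScalarTower.algebraMap_apply (𝓞 K) (𝓞 L) L, IsScalarTower.algebraMap_apply (𝓞 K) K L]
  obtain ⟨β, hβ1, hβ2⟩ := exists_root_fixed_int hn ha (α := ⟨α, hα1⟩) (ζ := ⟨ζ, hζ1⟩)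
    (hinj (by rw [map_pow, e1, ← hα]; rfl)) (IsPrimitiveRoot.of_map_of_injective
      (f := algebraMap (𝓞 L) L) hζ hinj) h τ
  refine ⟨algebraMap (𝓞 L) L β, ?_, ?_⟩
  · rw [← map_pow, hβ1, e1]
  · exact congrArg (algebraMap (𝓞 L) L) hβ2

end Fermat.Agent.Cor.GW
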