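import Fermat.Agent.Corollaries.GW.Field
import Mathlib.NumberTheory.LegendreSymbol.QuadraticChar.Basic

/-!
# The special elements are `n`-th powers modulo all odd prime ideals

* `powMod_special`: for `c = η + η⁻¹ ∈ K`, `η` a primitive `2 ^ s`-th root of unity, `s ≥ 2`, and
  `2 ^ (s + 1) ∣ n`, the element `(2 + c) ^ (n / 2)` is an `n`-th power modulo every prime ideal which does
  not contain `2`;
* `grunwald_wang_tfae`: the equivalence in the local-global principle for `n`-th powers.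
-/

set_option autoImplicit false

namespace Fermat.Agent.Cor.GW

open NumberField IsDedekindDomain Fermat.Agent.Cor.ChebK

/-- In a finite field one of `-1`, `u`, `-u` is a square. -/
theorem isSquare_or {F : Type*} [Field F] [Finite F] (u : F) :
    IsSquare (-1 : F) ∨ IsSquare u ∨ IsSquare (-u) := by
  classical
  have : Fintype F := Fintype.ofFinite F
  by_cases hF : ringChar F = 2
  · exact Or.inl (FiniteField.isSquare_of_char_two hF _)
  by_cases h1 : IsSquare u
  · exact Or.inr (Or.inl h1)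
  by_cases h2 : IsSquare (-u)
  · exact Or.inr (Or.inr h2)
  left
  have hu : u ≠ 0 := by
    rintro rfl
    exact h1 (IsSquare.zero)
  rw [← quadraticChar_neg_one_iff_not_isSquare] at h1 h2
  rw [← quadraticChar_one_iff_isSquare (neg_ne_zero.mpr one_ne_zero)]
  have h3 : quadraticChar F (-u) * quadraticChar F u = quadraticChar F (-1) := by
    rw [← map_mul, show -u * u = -1 * u ^ 2 by ring, map_mul, map_pow,
      quadraticChar_sq_one hu, mul_one]
  rw [← h3, h1, h2]
  norm_num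

universe u

variable {K : Type u} [Field K] [NumberField K] {n s : ℕ}

/-- The root of unity in a number field. -/
theorem exists_numberField {c : K} (hc : IsTwoCos s c) :
    ∃ (L : Type u) (_ : Field L) (_ : NumberField L) (_ : Algebra K L) (_ : IsGalois K L) (η : L),
      IsPrimitiveRoot η (2 ^ s) ∧ algebraMap K L c = η + η⁻¹ := by
  obtain ⟨η, hη, hc⟩ := hc
  obtain ⟨L, hL1, hL2, hL3, hL4, α, ζ, -, hζ⟩ := exists_field K (pow_pos two_pos s) (1 : K)
  have hfin : FiniteDimensional K L := Module.Finite.of_restrictScalars_finite ℚ K L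
  let i : L →ₐ[K] AlgebraicClosure K := IsAlgClosed.lift
  have : NeZero (2 ^ s) := ⟨pow_ne_zero _ two_ne_zero⟩
  have hi : Function.Injective i := i.injective
  obtain ⟨j, -, hj⟩ := (hζ.map_of_injective hi).eq_pow_of_pow_eq_one hη.pow_eq_one
  refine ⟨L, hL1, hL2, hL3, hL4, ζ ^ j, ?_, hi ?_⟩
  · refine IsPrimitiveRoot.of_map_of_injective (f := i) ?_ hi
    rw [map_pow, hj]
    exact hη
  · rw [i.commutes, hc, map_add, map_inv₀, map_pow, hj]

/-- **The special element is an `n`-th power modulo every odd prime ideal.** -/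
theorem powMod_special (hs : 2 ≤ s) (hn : 2 ^ (s + 1) ∣ n) {c : 𝓞 K} (hc : IsTwoCos s (c : K))
    {v : HeightOneSpectrum (𝓞 K)} (hv : (2 : 𝓞 K) ∉ v.asIdeal) : PowMod n ((2 + c) ^ (n / 2)) v := by
  obtain ⟨L, hL1, hL2, hL3, hL4, η, hη, hcη⟩ := exists_numberField hc
  obtain ⟨w, hw⟩ := exists_above (L := L) v
  have := v.isMaximal
  have := w.isMaximal
  let _ := Ideal.Quotient.field v.asIdeal
  let _ := Ideal.Quotient.field w.asIdeal
  have : Finite (𝓞 K ⧸ v.asIdeal) := Ring.HasFiniteQuotients.finiteQuotient v.ne_bot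
  let f : (𝓞 K ⧸ v.asIdeal) →+* (𝓞 L ⧸ w.asIdeal) :=
    Ideal.quotientMap w.asIdeal (algebraMap (𝓞 K) (𝓞 L)) fun x hx =>
      Ideal.mem_comap.mpr ((mem_under hw x).mpr hx)
  let _ : Algebra (𝓞 K ⧸ v.asIdeal) (𝓞 L ⧸ w.asIdeal) := f.toAlgebra
  -- the integral root of unity
  have hinj : Function.Injective (algebraMap (𝓞 L) L) := RingOfIntegers.coe_injective
  let η₀ : 𝓞 L := ⟨η, hη.isIntegral (pow_pos two_pos s)⟩
  have hη₀ : algebraMap (𝓞 L) L η₀ = η := rfl
  have hηne : η ≠ 0 := hη.ne_zero (pow_ne_zero _ two_ne_zero)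
  have e1 : algebraMap (𝓞 K) (𝓞 L) c * η₀ = η₀ ^ 2 + 1 := by
    apply hinj
    rw [map_mul, map_add, map_pow, map_one, hη₀, ← IsScalarTower.algebraMap_apply (𝓞 K) (𝓞 L) L,
      IsScalarTower.algebraMap_apply (𝓞 K) K L]
    change algebraMap K L (c : K) * η = η ^ 2 + 1
    rw [hcη]
    field_simp
  obtain ⟨t, rfl⟩ := Nat.exists_eq_add_of_le' hs
  have e2 : η₀ ^ 2 ^ (t + 1) = -1 := by
    apply hinj
    rw [map_pow, hη₀, map_neg, map_one]
    exact pow_eq_neg_one hη
  have h2w : (2 : 𝓞 L) ∉ w.asIdeal := fun h => hv ((mem_under hw _).mp (by rwa [map_ofNat]))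
  set q := Ideal.Quotient.mk w.asIdeal with hq
  have e3 : (q η₀) ^ 2 ^ (t + 1) = -1 := by rw [← map_pow, e2, map_neg, map_one]
  have hprim : IsPrimitiveRoot (q η₀) (2 ^ (t + 2)) := by
    have h1 : orderOf (q η₀) = 2 ^ (t + 1 + 1) := by
      apply orderOf_eq_prime_pow
      · rw [e3]
        intro h
        apply h2w
        rw [← Ideal.Quotient.eq_zero_iff_mem, map_ofNat]
        linear_combination -h
      · rw [pow_succ, pow_mul, e3]
        norm_num
    have h3 := IsPrimitiveRoot.orderOf (q η₀)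
    rwa [h1] at h3
  have hc' : algebraMap (𝓞 K ⧸ v.asIdeal) (𝓞 L ⧸ w.asIdeal) (Ideal.Quotient.mk v.asIdeal c) =
      q η₀ + (q η₀)⁻¹ := by
    have h1 : algebraMap (𝓞 K ⧸ v.asIdeal) (𝓞 L ⧸ w.asIdeal) (Ideal.Quotient.mk v.asIdeal c) =
        q (algebraMap (𝓞 K) (𝓞 L) c) := Ideal.quotientMap_mk
    have h2 : q η₀ ≠ 0 := hprim.ne_zero (pow_ne_zero _ two_ne_zero)
    have h3 := congrArg q e1
    rw [map_mul, map_add, map_pow, map_one] at h3
    rw [h1]
    field_simp
    linear_combination h3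
  obtain ⟨d, hd⟩ := exists_pow_special hs hn hprim hc' (isSquare_or _)
  obtain ⟨x, rfl⟩ := Ideal.Quotient.mk_surjective d
  refine ⟨x, ?_⟩
  rw [← Ideal.Quotient.eq_zero_iff_mem, map_sub, map_pow, hd, map_pow, map_add, map_ofNat,
    sub_self]

omit [NumberField K] in
/-- `c = η + η⁻¹` is an algebraic integer. -/
theorem IsTwoCos.isIntegral {c : K} (hc : IsTwoCos s c) : IsIntegral ℤ c := by
  obtain ⟨η, hη, hc⟩ := hc
  have h1 : IsIntegral ℤ η := hη.isIntegral (pow_pos two_pos s)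
  have h2 : IsIntegral ℤ η⁻¹ := hη.inv.isIntegral (pow_pos two_pos s)
  have h3 : IsIntegral ℤ (algebraMap K (AlgebraicClosure K) c) := by
    rw [hc]
    exact h1.add h2
  exact (isIntegral_algebraMap_iff (algebraMap K (AlgebraicClosure K)).injective).mp h3

/-- The exceptional set is finite. -/
theorem finite_of_special {a : 𝓞 K} (hs : 2 ≤ s) (hn : 2 ^ (s + 1) ∣ n) {c b : K}
    (hc : IsTwoCos s c) (h : (2 + c) ^ (n / 2) * b ^ n = a) :
    {v : HeightOneSpectrum (𝓞 K) | ¬ PowMod n a v}.Finite := by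
  obtain ⟨c, rfl⟩ : ∃ c' : 𝓞 K, (c' : K) = c := ⟨⟨c, hc.isIntegral⟩, rfl⟩
  obtain ⟨y, z, hz, rfl⟩ := IsFractionRing.div_surjective (A := 𝓞 K) b
  have hz0 : z ≠ 0 := nonZeroDivisors.ne_zero hz
  have hz0' : algebraMap (𝓞 K) K z ≠ 0 := by
    rw [Ne, map_eq_zero_iff _ RingOfIntegers.coe_injective]
    exact hz0
  have h1 : (2 + c) ^ (n / 2) * y ^ n = a * z ^ n := by
    apply RingOfIntegers.coe_injective
    rw [map_mul, map_mul, map_pow, map_pow, map_pow, map_add, map_ofNat]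
    change (2 + (c : K)) ^ (n / 2) * algebraMap (𝓞 K) K y ^ n = (a : K) * algebraMap (𝓞 K) K z ^ n
    rw [← h, div_pow]
    field_simp
  refine (finite_mem (mul_ne_zero two_ne_zero hz0)).subset fun v hv => ?_
  by_contra hcon
  apply hv
  have hzv : z ∉ v.asIdeal := fun h => hcon (Ideal.mul_mem_left _ _ h)
  have h2v : (2 : 𝓞 K) ∉ v.asIdeal := fun h => hcon (Ideal.mul_mem_right _ _ h)
  obtain ⟨x, hx⟩ := powMod_special hs hn hc h2v
  have := v.isMaximal
  let _ := Ideal.Quotient.field v.asIdeal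
  set q := Ideal.Quotient.mk v.asIdeal with hq
  have hqz : q z ≠ 0 := fun h => hzv (Ideal.Quotient.eq_zero_iff_mem.mp h)
  obtain ⟨z', hz'⟩ := Ideal.Quotient.mk_surjective (q z)⁻¹
  refine ⟨x * y * z', ?_⟩
  rw [← Ideal.Quotient.eq_zero_iff_mem] at hx ⊢
  change q _ = 0
  change q _ = 0 at hx
  change q z' = _ at hz'
  have h2 := congrArg q h1
  simp only [map_sub, map_mul, map_pow] at hx h2 ⊢
  rw [hz', mul_pow, mul_pow, sub_eq_zero.mp hx, h2, inv_pow, mul_assoc,
    mul_inv_cancel₀ (pow_ne_zero _ hqz), mul_one, sub_self]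

/-- **The local-global principle for `n`-th powers**, as an equivalence. For an integer `a` of a number
field `K` and `n ≥ 1` the following are equivalent:

* `a` is an `n`-th power modulo all but finitely many prime ideals;
* `a` is an `n`-th power modulo a set of prime ideals of density one;
* `a` is an `n`-th power in `K` or `a = (2 + c) ^ (n / 2) b ^ n`, where `b ∈ K` and `c = η + η⁻¹ ∈ K` for a
  primitive `2 ^ s`-th root of unity `η`, `s ≥ 2`, `2 ^ (s + 1) ∣ n`, and none of `-1`, `2 + c`, `-(2 + c)`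
  is a square in `K`;
* the same without the last condition. -/
theorem grunwald_wang_tfae (hn : 0 < n) (a : 𝓞 K) : List.TFAE [
    {v : HeightOneSpectrum (𝓞 K) | ¬ PowMod n a v}.Finite,
    HasDensity {v : HeightOneSpectrum (𝓞 K) | ¬ PowMod n a v} 0,
    (∃ b : K, b ^ n = a) ∨ ∃ s : ℕ, 2 ≤ s ∧ 2 ^ (s + 1) ∣ n ∧ ∃ c b : K, IsTwoCos s c ∧
      ¬ IsSquare (-1 : K) ∧ ¬ IsSquare (2 + c) ∧ ¬ IsSquare (-(2 + c)) ∧
      (2 + c) ^ (n / 2) * b ^ n = a,
    (∃ b : K, b ^ n = a) ∨ ∃ s : ℕ, 2 ≤ s ∧ 2 ^ (s + 1) ∣ n ∧ ∃ c b : K, IsTwoCos s c ∧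
      (2 + c) ^ (n / 2) * b ^ n = a] := by
  tfae_have 1 → 2 := hasDensity_of_finite
  tfae_have 2 → 3 := grunwald_wang hn
  tfae_have 3 → 4 := by
    rintro (h | ⟨s, hs, hdvd, c, b, hc, -, -, -, h⟩)
    · exact Or.inl h
    · exact Or.inr ⟨s, hs, hdvd, c, b, hc, h⟩
  tfae_have 4 → 1 := by
    rintro (⟨b, hb⟩ | ⟨s, hs, hdvd, c, b, hc, h⟩)
    · have hint : IsIntegral ℤ b := by
        refine IsIntegral.of_pow hn ?_
        rw [hb]
        exact RingOfIntegers.isIntegral_coe a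
      convert Set.finite_empty
      rw [Set.eq_empty_iff_forall_notMem]
      intro v hv
      obtain ⟨b', hb'⟩ : ∃ b' : 𝓞 K, algebraMap (𝓞 K) K b' = b := ⟨⟨b, hint⟩, rfl⟩
      refine hv ⟨b', ?_⟩
      have h1 : b' ^ n = a := RingOfIntegers.coe_injective (by rw [map_pow, hb', hb])
      rw [h1, sub_self]
      exact zero_mem _
    · exact finite_of_special hs hdvd hc h
  tfae_finish

end Fermat.Agent.Cor.GW
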