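import Fermat.Agent.Corollaries.GW.Iff
import Fermat.Agent.Corollaries.HM.Square
import Fermat.Agent.LT.Local

/-!
# The local-global principle for `n`-th powers: completions (Grunwald - Wang, Artin - Tate)

`K` is a number field, `S` a set of finite places of density zero (for example a finite set).

* `powMod_of_local`: an integer which is an `n`-th power in `K_v` is an `n`-th power modulo `v`;
* `isSquare_or_of_pow_eq`: if `u ^ N = z ^ (2 N)`, then one of `-1`, `u`, `-u` is a square;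
* `isSquare_or_local`: one of `-1`, `2 + c`, `-(2 + c)` is a square in `K_v`, for `v ∤ 2`;
* `grunwald_wang_local`: `a ∈ K` is an `n`-th power in `K_v` for all `v ∉ S` if and only if `a` is an `n`-th
  power in `K`, or the special case occurs (Artin - Tate, Chapter X, Theorem 1).
-/

set_option autoImplicit false

namespace Fermat.Agent.Cor.GW

open NumberField IsDedekindDomain HeightOneSpectrum Fermat.Agent.Cor.ChebK Fermat.Agent.LT.Loc

/-! ### Roots of unity and squares -/

section Field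

variable {F : Type*} [Field F]

theorem isSquare_of_odd_pow {ω : F} {m : ℕ} (hm : Odd m) (h : ω ^ m = 1) : IsSquare ω := by
  obtain ⟨t, rfl⟩ := hm
  refine ⟨ω ^ (t + 1), ?_⟩
  rw [← pow_add, show t + 1 + (t + 1) = 2 * t + 1 + 1 by ring, pow_succ, h, one_mul]

/-- For a root of unity `ω` one of `-1`, `ω`, `-ω` is a square. -/
theorem isSquare_of_pow_eq_one {ω : F} {k m : ℕ} (hm : Odd m) (h : ω ^ (2 ^ k * m) = 1) :
    IsSquare (-1 : F) ∨ IsSquare ω ∨ IsSquare (-ω) := by
  induction k with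
  | zero => exact Or.inr (Or.inl (isSquare_of_odd_pow hm (by simpa using h)))
  | succ k ih =>
    have h1 : (ω ^ (2 ^ k * m)) ^ 2 = 1 := by
      rw [← pow_mul, ← h]
      congr 1
      ring
    rcases sq_eq_sq_iff_eq_or_eq_neg.mp (h1.trans (one_pow 2).symm) with h2 | h2
    · exact ih h2
    · rcases Nat.eq_zero_or_pos k with rfl | hk
      · refine Or.inr (Or.inr (isSquare_of_odd_pow hm ?_))
        rw [hm.neg_pow]
        rw [pow_zero, one_mul] at h2
        rw [h2, neg_neg]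
      · left
        refine ⟨ω ^ (2 ^ (k - 1) * m), ?_⟩
        rw [← h2, ← pow_add]
        congr 1
        obtain ⟨j, rfl⟩ : ∃ j, k = j + 1 := ⟨k - 1, by omega⟩
        rw [Nat.add_sub_cancel, pow_succ]
        ring

/-- If `u ^ N = z ^ (2 N)`, `N ≥ 1`, then one of `-1`, `u`, `-u` is a square. -/
theorem isSquare_or_of_pow_eq {u z : F} {N : ℕ} (hN : N ≠ 0) (h : u ^ N = z ^ (2 * N)) :
    IsSquare (-1 : F) ∨ IsSquare u ∨ IsSquare (-u) := by
  by_cases hz : z = 0
  · subst hz
    rw [zero_pow (by omega)] at h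
    have hu : u = 0 := pow_eq_zero_iff hN |>.mp h
    exact Or.inr (Or.inl ⟨0, by rw [hu, mul_zero]⟩)
  obtain ⟨k, m, hm, rfl⟩ := Nat.exists_eq_two_pow_mul_odd hN
  have h1 : (u / z ^ 2) ^ (2 ^ k * m) = 1 := by
    rw [div_pow, h, ← pow_mul, div_self (pow_ne_zero _ hz)]
  have hz2 : IsSquare (z ^ 2) := ⟨z, pow_two z⟩
  have e1 : u = u / z ^ 2 * z ^ 2 := by field_simp
  rcases isSquare_of_pow_eq_one hm h1 with h2 | h2 | h2
  · exact Or.inl h2
  · right; left
    rw [e1]
    exact h2.mul hz2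
  · right; right
    rw [e1, ← neg_mul]
    exact h2.mul hz2

end Field

universe u

variable {K : Type u} [Field K] [NumberField K] {n s : ℕ} {v : HeightOneSpectrum (𝓞 K)}

/-! ### From `K_v` to the residue field -/

/-- An integer which is an `n`-th power in `K_v` is an `n`-th power modulo `v`. -/
theorem powMod_of_local (hn : 0 < n) {a : 𝓞 K}
    (h : ∃ y : v.adicCompletion K, y ^ n = algebraMap K (v.adicCompletion K) a) :
    PowMod n a v := by
  obtain ⟨y, hy⟩ := h
  have hy1 : Valued.v y ≤ 1 := by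
    have h1 : Valued.v y ^ n ≤ 1 := by
      rw [← map_pow, hy, Fermat.Agent.LT.Ext.v_algebraMap]
      exact v.valuation_le_one (K := K) a
    exact (pow_le_one_iff hn.ne').mp h1
  obtain ⟨r, hr⟩ := exists_sub_mem_maximalIdeal v ⟨y, hy1⟩
  refine ⟨r, ?_⟩
  rw [← ker_residue v, RingHom.mem_ker, RingHom.comp_apply, IsLocalRing.residue_eq_zero_iff]
  have h2 : algebraMap (𝓞 K) (v.adicCompletionIntegers K) a = ⟨y, hy1⟩ ^ n := by
    apply Subtype.ext
    exact hy.symm
  rw [map_sub, map_pow, h2]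
  obtain ⟨c, hc⟩ := sub_dvd_pow_sub_pow (algebraMap (𝓞 K) (v.adicCompletionIntegers K) r)
    ⟨y, hy1⟩ n
  rw [hc]
  refine Ideal.mul_mem_right _ _ ?_
  rw [← neg_mem_iff, neg_sub]
  exact hr

/-- The local-global principle with completions, one direction. -/
theorem exists_of_local (hn : 0 < n) (a : K) {S : Set (HeightOneSpectrum (𝓞 K))}
    (hS : HasDensity S 0)
    (h : ∀ v ∉ S, ∃ y : v.adicCompletion K, y ^ n = algebraMap K (v.adicCompletion K) a) :
    (∃ b : K, b ^ n = a) ∨ ∃ s : ℕ, 2 ≤ s ∧ 2 ^ (s + 1) ∣ n ∧ ∃ c b : K, IsTwoCos s c ∧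
      ¬ IsSquare (-1 : K) ∧ ¬ IsSquare (2 + c) ∧ ¬ IsSquare (-(2 + c)) ∧
      (2 + c) ^ (n / 2) * b ^ n = a := by
  obtain ⟨x, z, hz, rfl⟩ := IsFractionRing.div_surjective (A := 𝓞 K) a
  have hz0 : algebraMap (𝓞 K) K z ≠ 0 := by
    rw [Ne, map_eq_zero_iff _ RingOfIntegers.coe_injective]
    exact nonZeroDivisors.ne_zero hz
  have hn1 : algebraMap (𝓞 K) K z ^ n = algebraMap (𝓞 K) K z ^ (n - 1) * algebraMap (𝓞 K) K z := by
    rw [← pow_succ]
    congr 1
    omega
  have e1 : ((x * z ^ (n - 1) : 𝓞 K) : K) =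
      algebraMap (𝓞 K) K x / algebraMap (𝓞 K) K z * algebraMap (𝓞 K) K z ^ n := by
    rw [hn1]
    field_simp
    exact (map_mul (algebraMap (𝓞 K) K) x (z ^ (n - 1))).trans (by rw [map_pow])
  have hS' : HasDensity {v : HeightOneSpectrum (𝓞 K) | ¬ PowMod n (x * z ^ (n - 1)) v} 0 := by
    refine hasDensity_zero_mono (Q := S) (fun v hv => ?_) hS
    by_contra hvS
    apply hv
    obtain ⟨y, hy⟩ := h v hvS
    refine powMod_of_local hn ⟨y * algebraMap K _ (algebraMap (𝓞 K) K z), ?_⟩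
    rw [mul_pow, hy, ← map_pow, ← map_mul, ← e1]
  rcases grunwald_wang hn hS' with ⟨b, hb⟩ | ⟨s, hs, hdvd, c, b, hc, h1, h2, h3, hb⟩
  · refine Or.inl ⟨b / algebraMap (𝓞 K) K z, ?_⟩
    rw [div_pow, hb, e1, mul_div_cancel_right₀ _ (pow_ne_zero _ hz0)]
  · refine Or.inr ⟨s, hs, hdvd, c, b / algebraMap (𝓞 K) K z, hc, h1, h2, h3, ?_⟩
    rw [div_pow, ← mul_div_assoc, hb, e1, mul_div_cancel_right₀ _ (pow_ne_zero _ hz0)]

/-! ### Squares in `K_v`, `v ∤ 2` -/

theorem valuation_eq_one {x : 𝓞 K} (hx : x ∉ v.asIdeal) : v.valuation K (x : K) = 1 := by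
  refine le_antisymm (v.valuation_le_one (K := K) x) (not_lt.mp fun h => hx ?_)
  exact (v.valuation_lt_one_iff_mem (K := K) x).mp h

/-- A `v`-unit which is a square modulo `v` is a square in `K_v`, for `v ∤ 2`. -/
theorem isSquare_local (h2 : (2 : 𝓞 K) ∉ v.asIdeal) {x : 𝓞 K} (hx : x ∉ v.asIdeal)
    (h : IsSquare (Ideal.Quotient.mk v.asIdeal x)) :
    IsSquare (algebraMap K (v.adicCompletion K) x) := by
  obtain ⟨d', hd'⟩ := h
  obtain ⟨d, rfl⟩ := Ideal.Quotient.mk_surjective d'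
  have hmem : x - d * d ∈ v.asIdeal := by
    rw [← Ideal.Quotient.eq_zero_iff_mem, map_sub, map_mul, hd', sub_self]
  have hd : d ∉ v.asIdeal := by
    intro hd
    apply hx
    have h3 := Ideal.add_mem _ hmem (Ideal.mul_mem_left _ d hd)
    rwa [sub_add_cancel] at h3
  have hd1 := valuation_eq_one hd
  have hd0 : (d : K) ≠ 0 := by
    intro h0
    rw [h0, map_zero] at hd1
    exact zero_ne_one hd1
  have h4 : Valued.v (4 : v.adicCompletion K) = 1 := by
    have e4 : (4 : v.adicCompletion K) = algebraMap K (v.adicCompletion K) ((4 : 𝓞 K) : K) := by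
      rw [show ((4 : 𝓞 K) : K) = 4 from map_ofNat _ 4, map_ofNat]
    rw [e4, Fermat.Agent.LT.Ext.v_algebraMap]
    refine valuation_eq_one fun h => h2 ?_
    have h5 : (2 : 𝓞 K) * 2 ∈ v.asIdeal := by
      norm_num
      exact h
    exact (v.isPrime.mem_or_mem h5).elim id id
  have hkey : IsSquare (algebraMap K (v.adicCompletion K) ((x : K) / (d : K) ^ 2)) := by
    apply Fermat.Agent.Cor.HM.isSquare_of_near
    rw [h4, ← map_one (algebraMap K (v.adicCompletion K)), ← map_sub,
      Fermat.Agent.LT.Ext.v_algebraMap]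
    have e1 : (x : K) / (d : K) ^ 2 - 1 = ((x - d * d : 𝓞 K) : K) / (d : K) ^ 2 := by
      have e2 : ((x - d * d : 𝓞 K) : K) = x - d * d :=
        (map_sub (algebraMap (𝓞 K) K) x (d * d)).trans (by rw [map_mul])
      rw [e2]
      field_simp
    rw [e1, map_div₀, map_pow, hd1, one_pow, div_one]
    exact (v.valuation_lt_one_iff_mem (K := K) _).mpr hmem
  have e3 : algebraMap K (v.adicCompletion K) x =
      algebraMap K (v.adicCompletion K) ((x : K) / (d : K) ^ 2) *
        (algebraMap K (v.adicCompletion K) d) ^ 2 := by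
    rw [← map_pow (algebraMap K (v.adicCompletion K)), ← map_mul]
    congr 1
    field_simp
  rw [e3]
  exact hkey.mul ⟨_, pow_two _⟩

/-- For `v ∤ 2` and a `v`-unit `u` one of `-1`, `u`, `-u` is a square in `K_v`. -/
theorem isSquare_or_local (h2 : (2 : 𝓞 K) ∉ v.asIdeal) {u : 𝓞 K} (hu : u ∉ v.asIdeal) :
    IsSquare (-1 : v.adicCompletion K) ∨ IsSquare (algebraMap K (v.adicCompletion K) u) ∨
      IsSquare (-algebraMap K (v.adicCompletion K) u) := by
  have := v.isMaximal
  let _ := Ideal.Quotient.field v.asIdeal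
  have : Finite (𝓞 K ⧸ v.asIdeal) := Ring.HasFiniteQuotients.finiteQuotient v.ne_bot
  rcases isSquare_or (Ideal.Quotient.mk v.asIdeal u) with h | h | h
  · left
    have h1 := isSquare_local (x := -1) h2
      (fun h => v.isPrime.ne_top ((Ideal.eq_top_iff_one _).mpr (neg_mem_iff.mp h)))
      (by rwa [map_neg, map_one])
    rwa [show ((-1 : 𝓞 K) : K) = -1 from
      (map_neg (algebraMap (𝓞 K) K) 1).trans (by rw [map_one]), map_neg, map_one] at h1
  · exact Or.inr (Or.inl (isSquare_local h2 hu h))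
  · right; right
    have h1 := isSquare_local (x := -u) h2 (fun h => hu (neg_mem_iff.mp h))
      (by rwa [map_neg])
    rwa [show ((-u : 𝓞 K) : K) = -(u : K) from map_neg (algebraMap (𝓞 K) K) u, map_neg] at h1

/-! ### The theorem -/

/-- `2 + c` divides `4`. -/
theorem exists_mul_eq_four (hs : 2 ≤ s) {c : 𝓞 K} (hc : IsTwoCos s (c : K)) :
    ∃ t : 𝓞 K, (2 + c) * t = 4 := by
  have h0 : 2 + (c : K) ≠ 0 := hc.ne_zero hs
  obtain ⟨η, hη, hc⟩ := hc
  have hη0 : η ≠ 0 := hη.ne_zero (pow_ne_zero _ two_ne_zero)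
  obtain ⟨t, rfl⟩ := Nat.exists_eq_add_of_le' hs
  have h1 : η ^ 2 ^ (t + 1) = -1 := pow_eq_neg_one hη
  set g := ∑ i ∈ Finset.range (2 ^ (t + 1)), (-η) ^ i with hg
  have hηi : IsIntegral ℤ η := hη.isIntegral (pow_pos two_pos _)
  have hgi : IsIntegral ℤ g := IsIntegral.sum _ fun i _ => hηi.neg.pow i
  have h2 : g * (1 + η) = 2 := by
    have h3 : g * (-η - 1) = (-η) ^ 2 ^ (t + 1) - 1 := geom_sum_mul _ _
    have h4 : (-η) ^ 2 ^ (t + 1) = -1 := by
      rw [Even.neg_pow (Nat.even_pow.mpr ⟨even_two, by omega⟩), h1]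
    rw [h4] at h3
    linear_combination -h3
  have hi : IsIntegral ℤ (4 / (2 + (c : K))) := by
    have h5 : algebraMap K (AlgebraicClosure K) (4 / (2 + (c : K))) = g ^ 2 * η := by
      have h6 : algebraMap K (AlgebraicClosure K) (2 + (c : K)) ≠ 0 := by
        rwa [Ne, map_eq_zero]
      rw [map_div₀, div_eq_iff h6, map_add, hc, map_ofNat, map_ofNat]
      have h7 : g ^ 2 * η * (2 + (η + η⁻¹)) = (g * (1 + η)) ^ 2 := by
        field_simp
        ring
      rw [h7, h2]
      norm_num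
    have h8 : IsIntegral ℤ (algebraMap K (AlgebraicClosure K) (4 / (2 + (c : K)))) := by
      rw [h5]
      exact (hgi.pow 2).mul hηi
    exact (isIntegral_algebraMap_iff (algebraMap K (AlgebraicClosure K)).injective).mp h8
  refine ⟨⟨_, hi⟩, ?_⟩
  apply RingOfIntegers.coe_injective
  rw [map_mul, map_add, map_ofNat, map_ofNat]
  exact mul_div_cancel₀ _ h0

/-- **The special element is an `n`-th power in `K_v`** as soon as one of `-1`, `2 + c`, `-(2 + c)` is a
square in `K_v`; this is the case for `v ∤ 2`. -/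
theorem exists_pow_completion (hs : 2 ≤ s) (hn : 2 ^ (s + 1) ∣ n) {c : K} (hc : IsTwoCos s c)
    (h : (2 : 𝓞 K) ∈ v.asIdeal → IsSquare (-1 : v.adicCompletion K) ∨
      IsSquare (algebraMap K (v.adicCompletion K) (2 + c)) ∨
      IsSquare (-algebraMap K (v.adicCompletion K) (2 + c))) :
    ∃ d : v.adicCompletion K, d ^ n = algebraMap K (v.adicCompletion K) ((2 + c) ^ (n / 2)) := by
  have hsq : IsSquare (-1 : v.adicCompletion K) ∨
      IsSquare (algebraMap K (v.adicCompletion K) (2 + c)) ∨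
      IsSquare (-algebraMap K (v.adicCompletion K) (2 + c)) := by
    by_cases h2 : (2 : 𝓞 K) ∈ v.asIdeal
    · exact h h2
    · obtain ⟨c, rfl⟩ : ∃ c' : 𝓞 K, (c' : K) = c := ⟨⟨c, hc.isIntegral⟩, rfl⟩
      obtain ⟨t, ht⟩ := exists_mul_eq_four hs hc
      have hu : 2 + c ∉ v.asIdeal := by
        intro hu
        apply h2
        have h4 : (2 : 𝓞 K) * 2 ∈ v.asIdeal := by
          rw [show (2 : 𝓞 K) * 2 = (2 + c) * t by rw [ht]; norm_num]
          exact Ideal.mul_mem_right _ _ hu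
        exact (v.isPrime.mem_or_mem h4).elim id id
      have h3 := isSquare_or_local h2 hu
      rwa [show ((2 + c : 𝓞 K) : K) = 2 + (c : K) from
        (map_add (algebraMap (𝓞 K) K) 2 c).trans (by rw [map_ofNat])] at h3
  obtain ⟨η, hη, hc⟩ := hc
  let i : AlgebraicClosure K →ₐ[K] AlgebraicClosure (v.adicCompletion K) := IsAlgClosed.lift
  have hc' : algebraMap (v.adicCompletion K) (AlgebraicClosure (v.adicCompletion K))
      (algebraMap K (v.adicCompletion K) c) = i η + (i η)⁻¹ := by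
    rw [← map_inv₀, ← map_add, ← hc, i.commutes,
      ← IsScalarTower.algebraMap_apply K (v.adicCompletion K)]
  rw [map_add, map_ofNat] at hsq
  obtain ⟨d, hd⟩ := exists_pow_special hs hn (hη.map_of_injective i.injective) hc' hsq
  exact ⟨d, by rw [hd, map_pow, map_add, map_ofNat]⟩

/-- **The theorem of Grunwald - Wang, local-global part** (Artin - Tate, Class Field Theory, Chapter X,
Theorem 1). Let `a ∈ K` and let `S` be a set of finite places of density zero, for example a finite set.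
Then `a` is an `n`-th power in `K_v` for all `v ∉ S` if and only if `a` is an `n`-th power in `K` or the
following special case occurs: `a = (2 + c) ^ (n / 2) b ^ n` with `b ∈ K` and `c = η + η⁻¹ ∈ K` for a
primitive `2 ^ s`-th root of unity `η`, `s ≥ 2`, `2 ^ (s + 1) ∣ n`, none of `-1`, `2 + c`, `-(2 + c)` is a
square in `K`, but one of them is a square in `K_v` for every `v ∉ S` above `2`. -/
theorem grunwald_wang_local (hn : 0 < n) (a : K) {S : Set (HeightOneSpectrum (𝓞 K))}
    (hS : HasDensity S 0) :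
    (∀ v ∉ S, ∃ y : v.adicCompletion K, y ^ n = algebraMap K (v.adicCompletion K) a) ↔
      (∃ b : K, b ^ n = a) ∨ ∃ s : ℕ, 2 ≤ s ∧ 2 ^ (s + 1) ∣ n ∧ ∃ c b : K, IsTwoCos s c ∧
        (¬ IsSquare (-1 : K) ∧ ¬ IsSquare (2 + c) ∧ ¬ IsSquare (-(2 + c))) ∧
        (∀ v ∉ S, (2 : 𝓞 K) ∈ v.asIdeal → IsSquare (-1 : v.adicCompletion K) ∨
          IsSquare (algebraMap K (v.adicCompletion K) (2 + c)) ∨
          IsSquare (-algebraMap K (v.adicCompletion K) (2 + c))) ∧
        (2 + c) ^ (n / 2) * b ^ n = a := by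
  constructor
  · intro h
    rcases exists_of_local hn a hS h with h1 | ⟨s, hs, hdvd, c, b, hc, h1, h2, h3, hb⟩
    · exact Or.inl h1
    by_cases hb0 : b = 0
    · refine Or.inl ⟨0, ?_⟩
      rw [← hb, hb0, zero_pow hn.ne', mul_zero]
    refine Or.inr ⟨s, hs, hdvd, c, b, hc, ⟨h1, h2, h3⟩, fun v hv _ => ?_, hb⟩
    obtain ⟨y, hy⟩ := h v hv
    have h2n : 2 * (n / 2) = n :=
      Nat.mul_div_cancel' ((dvd_pow_self 2 (by omega)).trans hdvd)
    have hb' : algebraMap K (v.adicCompletion K) b ≠ 0 := by rwa [Ne, map_eq_zero]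
    refine isSquare_or_of_pow_eq (z := y / algebraMap K (v.adicCompletion K) b)
      (N := n / 2) (by omega) ?_
    rw [h2n, div_pow, hy, ← hb, map_mul, map_pow, map_pow,
      mul_div_cancel_right₀ _ (pow_ne_zero _ hb')]
  · rintro (⟨b, rfl⟩ | ⟨s, hs, hdvd, c, b, hc, -, h2, rfl⟩) v hv
    · exact ⟨algebraMap K _ b, by rw [map_pow]⟩
    · obtain ⟨d, hd⟩ := exists_pow_completion hs hdvd hc (h2 v hv)
      exact ⟨d * algebraMap K _ b, by rw [mul_pow, hd, map_mul, map_pow _ b]⟩

/-- The case `8 ∤ n`: the Hasse principle for `n`-th powers. -/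
theorem exists_pow_iff_local (hn : 0 < n) (h8 : ¬ 8 ∣ n) (a : K)
    {S : Set (HeightOneSpectrum (𝓞 K))} (hS : HasDensity S 0) :
    (∀ v ∉ S, ∃ y : v.adicCompletion K, y ^ n = algebraMap K (v.adicCompletion K) a) ↔
      ∃ b : K, b ^ n = a := by
  rw [grunwald_wang_local hn a hS]
  refine or_iff_left ?_
  rintro ⟨s, hs, hdvd, -⟩
  exact h8 ((pow_dvd_pow 2 (by omega : 3 ≤ s + 1)).trans hdvd)

end Fermat.Agent.Cor.GW
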