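import Fermat.Agent.Corollaries.GW.Frob
import Mathlib.NumberTheory.Cyclotomic.Gal
import Mathlib.RingTheory.ZMod.UnitsCyclic
import Mathlib.FieldTheory.SplittingField.Construction

/-!
# Radicals and the cyclotomic character

* `exists_field`: a finite Galois extension containing a radical and the roots of unity;
* `apply_eq_of_pow`: if every element of `Gal(L/K)` fixes an `n`-th root of `a`, then an `n`-th root of
  `a` fixed by `τ₀` is fixed by all `τ` with `χ(τ) ∈ ⟨χ(τ₀)⟩`, where `χ` is the cyclotomic character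
  modulo `n`;
* `exists_pow_of_isCyclic`: if the image of `χ` is cyclic, then `a` is an `n`-th power in `K`;
* `exists_pow_of_coprime`: an `m`-th power which is an `n`-th power, `m` and `n` coprime.
-/

set_option autoImplicit false

namespace Fermat.Agent.Cor.GW

open NumberField IsDedekindDomain Fermat.Agent.Cor.ChebK Polynomial

/-! ### The extension -/

universe u

/-- A finite Galois extension of `K` which contains an `n`-th root of `x` and the `n`-th roots of
unity. -/
theorem exists_field (K : Type u) [Field K] [NumberField K] {n : ℕ} (hn : 0 < n) (x : K) :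
    ∃ (L : Type u) (_ : Field L) (_ : NumberField L) (_ : Algebra K L) (_ : IsGalois K L)
      (α ζ : L), α ^ n = algebraMap K L x ∧ IsPrimitiveRoot ζ n := by
  let f : K[X] := (X ^ n - C x) * cyclotomic n K
  have hf1 : (X ^ n - C x : K[X]) ≠ 0 := (monic_X_pow_sub_C x hn.ne').ne_zero
  have hf2 : (cyclotomic n K : K[X]) ≠ 0 := cyclotomic_ne_zero n K
  have hf : f ≠ 0 := mul_ne_zero hf1 hf2
  let L := f.SplittingField
  have hfin : FiniteDimensional K L := IsSplittingField.finiteDimensional _ f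
  have hchar : CharZero L := charZero_of_injective_algebraMap (algebraMap K L).injective
  have hNF : NumberField L :=
    { to_charZero := hchar
      to_finiteDimensional := FiniteDimensional.trans ℚ K L }
  have hgal : IsGalois K L := ⟨⟩
  have hsplit : (f.map (algebraMap K L)).Splits := SplittingField.splits f
  have hmap : f.map (algebraMap K L) ≠ 0 := Polynomial.map_ne_zero hf
  have h1 : ((X ^ n - C x : K[X]).map (algebraMap K L)).Splits :=
    hsplit.of_dvd hmap (Polynomial.map_dvd _ (dvd_mul_right _ _))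
  have h2 : ((cyclotomic n K : K[X]).map (algebraMap K L)).Splits :=
    hsplit.of_dvd hmap (Polynomial.map_dvd _ (dvd_mul_left _ _))
  obtain ⟨α, hα⟩ := h1.exists_eval_eq_zero (by
    rw [degree_map, degree_X_pow_sub_C hn]
    exact_mod_cast hn.ne')
  obtain ⟨ζ, hζ⟩ := h2.exists_eval_eq_zero (by
    rw [degree_map, degree_cyclotomic]
    exact_mod_cast (Nat.totient_pos.mpr hn).ne')
  have : NeZero (n : L) := ⟨by exact_mod_cast hn.ne'⟩
  refine ⟨L, inferInstance, hNF, inferInstance, hgal, α, ζ, ?_, ?_⟩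
  · rw [eval_map_algebraMap] at hα
    simpa [sub_eq_zero] using hα
  · rw [map_cyclotomic] at hζ
    exact isRoot_cyclotomic_iff.mp hζ

/-! ### The cyclotomic character -/

variable {K L : Type*} [Field K] [Field L] [Algebra K L] {n : ℕ} [NeZero n] {ζ : L}
  (hζ : IsPrimitiveRoot ζ n)

include hζ in
/-- `τ` with trivial cyclotomic character fixes the roots of unity. -/
theorem apply_eq_of_pow_eq_one {τ : L ≃ₐ[K] L} (hτ : hζ.autToPow K τ = 1) {ξ : L}
    (hξ : ξ ^ n = 1) : τ ξ = ξ := by
  have h1 : τ ζ = ζ := by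
    have h := hζ.autToPow_spec K τ
    rw [hτ, Units.val_one] at h
    by_cases hn1 : n = 1
    · subst hn1
      have : ζ = 1 := by simpa using hζ.pow_eq_one
      rw [this, map_one]
    · have : Fact (1 < n) := ⟨by have := NeZero.pos n; omega⟩
      rw [ZMod.val_one, pow_one] at h
      exact h.symm
  obtain ⟨i, -, rfl⟩ := hζ.eq_pow_of_pow_eq_one hξ
  rw [map_pow, h1]

/-- "Every element of the Galois group fixes an `n`-th root of `a`." -/
def FixRoot (K : Type*) {L : Type*} [Field K] [Field L] [Algebra K L] (n : ℕ) (a : L) : Prop :=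
  ∀ τ : L ≃ₐ[K] L, ∃ β : L, β ^ n = a ∧ τ β = β

variable {a : L} (h : FixRoot K n a) (ha : a ≠ 0)

include hζ h ha in
/-- An element with trivial cyclotomic character fixes all `n`-th roots of `a`. -/
theorem apply_root_eq {τ : L ≃ₐ[K] L} (hτ : hζ.autToPow K τ = 1) {α : L} (hα : α ^ n = a) :
    τ α = α := by
  obtain ⟨β, hβ, hfix⟩ := h τ
  have hβ0 : β ≠ 0 := by
    rintro rfl
    rw [zero_pow (NeZero.ne n)] at hβ
    exact ha hβ.symm
  have h1 : (α / β) ^ n = 1 := by
    rw [div_pow, hα, hβ, div_self ha]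
  have h2 := apply_eq_of_pow_eq_one hζ hτ h1
  have h3 : α = α / β * β := by rw [div_mul_cancel₀ _ hβ0]
  rw [h3, map_mul, h2, hfix]

include hζ h ha in
/-- A root of `a` fixed by `τ₀` is fixed by `τ` if `χ(τ)` is a power of `χ(τ₀)`. -/
theorem apply_eq_of_pow {τ₀ τ : L ≃ₐ[K] L} {β : L} (hβ : β ^ n = a) (hfix : τ₀ β = β)
    (hτ : hζ.autToPow K τ ∈ Subgroup.zpowers (hζ.autToPow K τ₀)) : τ β = β := by
  obtain ⟨k, hk⟩ := hτ
  have hk' : hζ.autToPow K τ₀ ^ k = hζ.autToPow K τ := hk
  have hfixk : ∀ k : ℤ, (τ₀ ^ k) β = β := by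
    intro k
    have h1 : τ₀ ∈ MulAction.stabilizer (L ≃ₐ[K] L) β := hfix
    exact (Subgroup.zpow_mem _ h1 k : τ₀ ^ k ∈ MulAction.stabilizer (L ≃ₐ[K] L) β)
  have h1 : hζ.autToPow K (τ * τ₀ ^ (-k)) = 1 := by
    rw [map_mul, map_zpow, ← hk', ← zpow_add, add_neg_cancel, zpow_zero]
  have h2 := apply_root_eq hζ h ha h1 hβ
  rw [AlgEquiv.mul_apply, hfixk] at h2
  exact h2

include hζ h ha in
/-- **The cyclic case.** If the image of the cyclotomic character is cyclic, then `a` is an `n`-th
power in `K`. -/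
theorem exists_pow_of_isCyclic [FiniteDimensional K L] [IsGalois K L]
    (hc : IsCyclic (hζ.autToPow K).range) : ∃ b : K, algebraMap K L b ^ n = a := by
  obtain ⟨⟨_, τ₀, rfl⟩, hg⟩ := hc.exists_generator
  obtain ⟨β, hβ, hfix⟩ := h τ₀
  have h1 : ∀ τ : L ≃ₐ[K] L, τ β = β := by
    intro τ
    refine apply_eq_of_pow hζ h ha hβ hfix ?_
    obtain ⟨k, hk⟩ := hg ⟨hζ.autToPow K τ, τ, rfl⟩
    exact ⟨k, congrArg Subtype.val hk⟩
  obtain ⟨b, rfl⟩ := (IsGalois.mem_range_algebraMap_iff_fixed β).mpr h1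
  exact ⟨b, hβ⟩

/-! ### Coprime exponents -/

/-- An element which is an `m`-th power and an `n`-th power, `m` and `n` coprime, is an `mn`-th
power. -/
theorem exists_pow_of_coprime {F : Type*} [Field F] {m n : ℕ} (hmn : m.Coprime n) {a b c : F}
    (ha : a ≠ 0) (hm : 0 < m) (hn : 0 < n) (hb : b ^ m = a) (hc : c ^ n = a) :
    ∃ d : F, d ^ (m * n) = a := by
  have hb0 : b ≠ 0 := by
    rintro rfl
    exact ha (by rw [← hb, zero_pow hm.ne'])
  have hc0 : c ≠ 0 := by
    rintro rfl
    exact ha (by rw [← hc, zero_pow hn.ne'])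
  obtain ⟨u, v, huv⟩ : IsCoprime (m : ℤ) (n : ℤ) := Nat.isCoprime_iff_coprime.mpr hmn
  refine ⟨c ^ u * b ^ v, ?_⟩
  have h1 : (c ^ u) ^ (m * n) = a ^ (u * m) := by
    rw [← hc, ← zpow_natCast c n, ← zpow_natCast (c ^ u), ← zpow_mul, ← zpow_mul]
    congr 1
    push_cast
    ring
  have h2 : (b ^ v) ^ (m * n) = a ^ (v * n) := by
    rw [← hb, ← zpow_natCast b m, ← zpow_natCast (b ^ v), ← zpow_mul, ← zpow_mul]
    congr 1
    push_cast
    ring
  rw [mul_pow, h1, h2, ← zpow_add₀ ha, huv, zpow_one]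

end Fermat.Agent.Cor.GW
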