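import Fermat.Agent.Corollaries.GW.Iff

/-!
# The local-global principle for `n`-th powers over `ℚ` (Trost, Ankeny - Rogers)

* `exists_pow_eq_two_pow`: if `8 ∣ n`, then `2 ^ (n / 2)` is an `n`-th power modulo every prime number;
* `ankeny_rogers`: an integer `a` is an `n`-th power modulo (almost) all prime numbers if and only if
  `a = b ^ n`, or `8 ∣ n` and `a = 2 ^ (n / 2) b ^ n`, for an integer `b`.
-/

set_option autoImplicit false

namespace Fermat.Agent.Cor.GW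

open NumberField IsDedekindDomain Fermat.Agent.Cor.ChebK Polynomial

/-- **`2 ^ (n / 2)` is an `n`-th power modulo every prime number**, if `8 ∣ n`. -/
theorem exists_pow_eq_two_pow {n : ℕ} (h8 : 8 ∣ n) (p : ℕ) [Fact p.Prime] :
    ∃ x : ZMod p, x ^ n = 2 ^ (n / 2) := by
  obtain ⟨m, rfl⟩ := h8
  have h1 : 8 * m / 2 = 4 * m := by omega
  rw [h1]
  rcases isSquare_or (2 : ZMod p) with ⟨i, hi⟩ | ⟨d, hd⟩ | ⟨d, hd⟩
  · refine ⟨1 + i, ?_⟩
    have h2 : (1 + i) ^ 2 = 2 * i := by linear_combination -hi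
    have h3 : i ^ 4 = 1 := by linear_combination (1 - i ^ 2) * hi
    rw [show 8 * m = 2 * (4 * m) by ring, pow_mul, h2, mul_pow, pow_mul i, h3, one_pow, mul_one]
  · refine ⟨d, ?_⟩
    rw [show 8 * m = 2 * (4 * m) by ring, pow_mul, hd, ← pow_two]
  · refine ⟨d, ?_⟩
    rw [show 8 * m = 2 * (4 * m) by ring, pow_mul, pow_two, ← hd, pow_mul, pow_mul]
    norm_num

/-- **`16` is an `8`-th power modulo every prime number**, but not in `ℚ`. -/
theorem exists_pow_eight (p : ℕ) [Fact p.Prime] : ∃ x : ZMod p, x ^ 8 = 16 := by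
  obtain ⟨x, hx⟩ := exists_pow_eq_two_pow (n := 8) dvd_rfl p
  exact ⟨x, by rw [hx]; norm_num⟩

theorem not_exists_pow_eight : ¬ ∃ b : ℚ, b ^ 8 = 16 := by
  rintro ⟨b, hb⟩
  have h1 : (b ^ 2 - 2) * ((b ^ 2 + 2) * (b ^ 4 + 4)) = 0 := by linear_combination hb
  have h2 : (b ^ 2 + 2) * (b ^ 4 + 4) ≠ 0 := by positivity
  have h3 : b ^ 2 = 2 := by linear_combination (mul_eq_zero.mp h1).resolve_right h2
  have h4 : ((b : ℚ) : ℝ) ^ 2 = 2 := by exact_mod_cast h3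
  have h5 : Irrational (Real.sqrt 2) := irrational_sqrt_two
  apply h5
  rcases le_total 0 (b : ℝ) with h | h
  · exact ⟨b, by rw [← h4, Real.sqrt_sq h]⟩
  · exact ⟨-b, by rw [← h4, Real.sqrt_sq_eq_abs, abs_of_nonpos h]; push_cast; rfl⟩

/-- Over `ℚ` the only `η + η⁻¹` is `i + i⁻¹ = 0`. -/
theorem IsTwoCos.eq_zero {s : ℕ} {c : ℚ} (hs : 2 ≤ s) (hc : IsTwoCos s c) : c = 0 := by
  obtain ⟨η, hη, hc⟩ := hc
  rw [eq_ratCast] at hc
  have hη0 : η ≠ 0 := hη.ne_zero (pow_ne_zero _ two_ne_zero)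
  have h1 : aeval η (X ^ 2 - C c * X + 1 : ℚ[X]) = 0 := by
    simp only [map_add, map_sub, map_mul, map_pow, aeval_X, aeval_C, map_one, eq_ratCast, hc]
    field_simp
    ring
  have hdeg : (X ^ 2 - C c * X + 1 : ℚ[X]).natDegree = 2 := by
    compute_degree!
  have h0 : (X ^ 2 - C c * X + 1 : ℚ[X]) ≠ 0 := by
    intro h
    rw [h, natDegree_zero] at hdeg
    omega
  have h2 := minpoly.dvd ℚ η h1
  rw [← cyclotomic_eq_minpoly_rat hη (pow_pos two_pos s)] at h2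
  have h3 := natDegree_le_of_dvd h2 h0
  rw [hdeg, natDegree_cyclotomic, Nat.totient_prime_pow Nat.prime_two (by omega)] at h3
  have h4 : s - 1 ≤ 1 := by
    by_contra h5
    have h6 : 2 ^ 2 ≤ 2 ^ (s - 1) := Nat.pow_le_pow_right two_pos (by omega)
    omega
  obtain rfl : s = 2 := by omega
  have h5 : η ^ 2 ^ 1 = -1 := pow_eq_neg_one (s := 1) hη
  have h6 : (c : AlgebraicClosure ℚ) = 0 := by
    rw [hc]
    field_simp
    linear_combination h5
  exact_mod_cast h6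

/-- A rational number with an integral `n`-th power is an integer. -/
theorem exists_int_of_pow {n : ℕ} (hn : 0 < n) {b : ℚ} {a : ℤ} (h : b ^ n = a) :
    ∃ c : ℤ, (c : ℚ) = b := by
  have h1 : IsIntegral ℤ (b ^ n) := by
    rw [h]
    exact isIntegral_algebraMap (R := ℤ) (A := ℚ) (x := a)
  obtain ⟨c, hc⟩ := IsIntegrallyClosed.exists_algebraMap_eq_of_isIntegral_pow hn h1
  exact ⟨c, hc⟩

theorem exists_int_of_special {n : ℕ} (hn : 0 < n) (h2 : 2 ∣ n) {b : ℚ} {a : ℤ}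
    (h : 2 ^ (n / 2) * b ^ n = a) : ∃ c : ℤ, (c : ℚ) = b := by
  obtain ⟨m, rfl⟩ := h2
  have hm : 0 < m := by omega
  have e : 2 * m / 2 = m := by omega
  rw [e] at h
  obtain ⟨k, hk⟩ : ∃ k : ℤ, (k : ℚ) = 2 * b ^ 2 :=
    exists_int_of_pow hm (a := a) (by rw [← h, mul_pow, ← pow_mul])
  obtain ⟨l, hl⟩ : ∃ l : ℤ, (l : ℚ) = 2 * b :=
    exists_int_of_pow two_pos (a := 2 * k) (by push_cast; rw [hk]; ring)
  have h3 : l ^ 2 = 2 * k := by
    have h4 : (l : ℚ) ^ 2 = 2 * k := by rw [hl, hk]; ring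
    exact_mod_cast h4
  have h4 : (2 : ℤ) ∣ l := Int.prime_two.dvd_of_dvd_pow (n := 2) ⟨k, h3⟩
  obtain ⟨c, rfl⟩ := h4
  refine ⟨c, ?_⟩
  push_cast at hl
  linarith

/-- Every prime ideal contains a prime number. -/
theorem exists_prime_mem {K : Type*} [Field K] [NumberField K] (v : HeightOneSpectrum (𝓞 K)) :
    ∃ p : ℕ, p.Prime ∧ (p : 𝓞 K) ∈ v.asIdeal := by
  have := v.isMaximal
  let _ := Ideal.Quotient.field v.asIdeal
  have : Finite (𝓞 K ⧸ v.asIdeal) := Ring.HasFiniteQuotients.finiteQuotient v.ne_bot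
  refine ⟨ringChar (𝓞 K ⧸ v.asIdeal), CharP.char_is_prime (𝓞 K ⧸ v.asIdeal) _, ?_⟩
  rw [← Ideal.Quotient.eq_zero_iff_mem, map_natCast]
  exact CharP.cast_eq_zero _ _

/-- From residue classes modulo `p` to the prime ideals above `p`. -/
theorem powMod_of_zmod {K : Type*} [Field K] [NumberField K] {n : ℕ} {a : ℤ} {p : ℕ}
    (h : ∃ x : ZMod p, x ^ n = a) {v : HeightOneSpectrum (𝓞 K)} (hv : (p : 𝓞 K) ∈ v.asIdeal) :
    PowMod n (a : 𝓞 K) v := by
  obtain ⟨x, hx⟩ := h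
  obtain ⟨y, rfl⟩ := ZMod.intCast_surjective x
  have h1 : ((y ^ n - a : ℤ) : ZMod p) = 0 := by
    push_cast
    rw [hx, sub_self]
  obtain ⟨k, hk⟩ := (ZMod.intCast_zmod_eq_zero_iff_dvd _ p).mp h1
  refine ⟨(y : 𝓞 K), ?_⟩
  have h2 : ((y : 𝓞 K) ^ n - a) = p * k := by
    have := congrArg (Int.cast : ℤ → 𝓞 K) hk
    push_cast at this
    exact this
  rw [h2]
  exact Ideal.mul_mem_right _ _ hv

/-- **The theorem of Ankeny and Rogers** (Trost 1934, Ankeny - Rogers 1951). For an integer `a` and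
`n ≥ 1` the following are equivalent:

* `a` is an `n`-th power modulo every prime number;
* `a` is an `n`-th power modulo all but finitely many prime numbers;
* `a` is an `n`-th power modulo a set of primes of (Dirichlet) density one;
* `a = b ^ n`, or `8 ∣ n` and `a = 2 ^ (n / 2) b ^ n`, for an integer `b`. -/
theorem ankeny_rogers {n : ℕ} (hn : 0 < n) (a : ℤ) : List.TFAE [
    ∀ p : ℕ, p.Prime → ∃ x : ZMod p, x ^ n = a,
    {p : ℕ | p.Prime ∧ ¬ ∃ x : ZMod p, x ^ n = a}.Finite,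
    HasDensity {v : HeightOneSpectrum (𝓞 ℚ) | ¬ PowMod n (a : 𝓞 ℚ) v} 0,
    (∃ b : ℤ, b ^ n = a) ∨ 8 ∣ n ∧ ∃ b : ℤ, 2 ^ (n / 2) * b ^ n = a] := by
  tfae_have 1 → 2 := by
    intro h
    convert Set.finite_empty
    rw [Set.eq_empty_iff_forall_notMem]
    exact fun p hp => hp.2 (h p hp.1)
  tfae_have 2 → 3 := by
    intro h
    apply hasDensity_of_finite
    have h0 : ((∏ p ∈ h.toFinset, p : ℕ) : 𝓞 ℚ) ≠ 0 := by
      rw [Nat.cast_ne_zero, Finset.prod_ne_zero_iff]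
      intro p hp
      exact ((Set.Finite.mem_toFinset h).mp hp).1.ne_zero
    refine (finite_mem h0).subset fun v hv => ?_
    obtain ⟨p, hp, hpv⟩ := exists_prime_mem v
    have h1 : p ∈ h.toFinset := by
      rw [Set.Finite.mem_toFinset]
      exact ⟨hp, fun h2 => hv (powMod_of_zmod h2 hpv)⟩
    obtain ⟨k, hk⟩ := Finset.dvd_prod_of_mem (fun p => p) h1
    change ((∏ p ∈ h.toFinset, p : ℕ) : 𝓞 ℚ) ∈ v.asIdeal
    rw [hk, Nat.cast_mul]
    exact Ideal.mul_mem_right _ _ hpv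
  tfae_have 3 → 4 := by
    intro h
    have hcast : ((a : 𝓞 ℚ) : ℚ) = a := map_intCast (algebraMap (𝓞 ℚ) ℚ) a
    rcases grunwald_wang hn h with ⟨b, hb⟩ | ⟨s, hs, hdvd, c, b, hc, -, -, -, hb⟩
    · rw [hcast] at hb
      obtain ⟨b, rfl⟩ := exists_int_of_pow hn hb
      exact Or.inl ⟨b, by exact_mod_cast hb⟩
    · have h8 : 8 ∣ n := (pow_dvd_pow 2 (by omega : 3 ≤ s + 1)).trans hdvd
      rw [hcast, hc.eq_zero hs, add_zero] at hb
      obtain ⟨b, rfl⟩ := exists_int_of_special hn ((by norm_num : 2 ∣ 8).trans h8) hb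
      exact Or.inr ⟨h8, b, by exact_mod_cast hb⟩
  tfae_have 4 → 1 := by
    rintro (⟨b, rfl⟩ | ⟨h8, b, rfl⟩) p hp
    · exact ⟨b, by push_cast; rfl⟩
    · have : Fact p.Prime := ⟨hp⟩
      obtain ⟨x, hx⟩ := exists_pow_eq_two_pow h8 p
      exact ⟨x * b, by rw [mul_pow, hx]; push_cast; rfl⟩
  tfae_finish

end Fermat.Agent.Cor.GW
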