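import Fermat.Agent.Corollaries.GW.Local
import Fermat.Agent.Corollaries.GW.Rat

/-!
# Examples: `ℚ` and `ℚ(√7)`

* `exists_pow_iff_padic`: a rational number is an `n`-th power if (and only if) it is an `n`-th power in
  `ℚ_p` for all `p`; it suffices to have this for `p = 2` and all but finitely many `p`;
* `wang_seven`: in `ℚ(√7)` the Hasse principle fails for `8`-th powers: `16` is an `8`-th power in all
  completions of `ℚ(√7)`, but not in `ℚ(√7)`.
-/

set_option autoImplicit false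

namespace Fermat.Agent.Cor.GW

open NumberField IsDedekindDomain HeightOneSpectrum

/-! ### The field of rational numbers -/

/-- `-1`, `2`, `-2` are not squares in `ℚ_2`. -/
theorem not_isSquare_padic_two : ¬ (IsSquare (-1 : ℚ_[2]) ∨ IsSquare (2 : ℚ_[2]) ∨
    IsSquare (-2 : ℚ_[2])) := by
  have h4 : ∀ d : ℚ_[2], d ^ 4 ≠ 4 := by
    intro d hd
    have h1 := congrArg Padic.valuation hd
    have h2 : (4 : ℚ_[2]) = ((2 : ℕ) : ℚ_[2]) ^ 2 := by norm_num
    rw [h2, Padic.valuation_pow, Padic.valuation_pow, Padic.valuation_p] at h1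
    omega
  rintro (⟨d, hd⟩ | ⟨d, hd⟩ | ⟨d, hd⟩)
  · have h1 : ‖d‖ ≤ 1 := by
      have h2 : ‖d‖ ^ 2 ≤ 1 := by
        rw [pow_two, ← norm_mul, ← hd, norm_neg, norm_one]
      exact (pow_le_one_iff_of_nonneg (norm_nonneg _) two_ne_zero).mp h2
    let d' : ℤ_[2] := ⟨d, h1⟩
    have h2 : d' * d' = -1 := PadicInt.ext hd.symm
    have h3 := congrArg (PadicInt.toZModPow (p := 2) 2) h2
    rw [map_mul, map_neg, map_one] at h3
    generalize PadicInt.toZModPow (p := 2) 2 d' = e at h3
    revert e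
    decide
  · exact h4 d (by rw [show d ^ 4 = (d * d) ^ 2 by ring, ← hd]; norm_num)
  · exact h4 d (by rw [show d ^ 4 = (d * d) ^ 2 by ring, ← hd]; norm_num)

/-- An integer which is an `n`-th power in `ℚ_p` is an `n`-th power modulo `p`. -/
theorem exists_zmod_of_padic {n : ℕ} (hn : 0 < n) {a : ℤ} {p : ℕ} [Fact p.Prime]
    (h : ∃ y : ℚ_[p], y ^ n = a) : ∃ x : ZMod p, x ^ n = a := by
  obtain ⟨y, hy⟩ := h
  have h1 : ‖y‖ ≤ 1 := by
    have h2 : ‖y‖ ^ n ≤ 1 := by
      rw [← norm_pow, hy]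
      exact Padic.norm_int_le_one a
    exact (pow_le_one_iff_of_nonneg (norm_nonneg _) hn.ne').mp h2
  let y' : ℤ_[p] := ⟨y, h1⟩
  have h2 : y' ^ n = a := PadicInt.ext (by push_cast; exact hy)
  exact ⟨PadicInt.toZMod y', by rw [← map_pow, h2, map_intCast]⟩

/-- A rational number is an `n`-th power if it is an `n`-th power in `ℚ_2` and in `ℚ_p` for all but
finitely many `p`. -/
theorem exists_pow_of_padic {n : ℕ} (hn : 0 < n) (a : ℚ) (T : Finset ℕ)
    (h2 : ∃ y : ℚ_[2], y ^ n = a) (h : ∀ p ∉ T, ∀ [Fact p.Prime], ∃ y : ℚ_[p], y ^ n = a) :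
    ∃ b : ℚ, b ^ n = a := by
  have hz : (a.den : ℚ) ≠ 0 := by exact_mod_cast a.den_ne_zero
  set a' : ℤ := a.num * a.den ^ (n - 1) with ha'
  have e1 : (a' : ℚ) = a * (a.den : ℚ) ^ n := by
    rw [ha']
    push_cast
    have h3 : (a.den : ℚ) ^ n = (a.den : ℚ) ^ (n - 1) * a.den := by
      rw [← pow_succ]
      congr 1
      omega
    rw [h3, ← Rat.mul_den_eq_num a]
    ring
  have key : ∀ (p : ℕ) [Fact p.Prime], (∃ y : ℚ_[p], y ^ n = a) →
      ∃ y : ℚ_[p], y ^ n = (a' : ℤ) := by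
    intro p _ ⟨y, hy⟩
    refine ⟨y * a.den, ?_⟩
    rw [mul_pow, hy]
    exact_mod_cast (congrArg (Rat.cast : ℚ → ℚ_[p]) e1).symm
  have h5 := ((ankeny_rogers hn a').out 1 3).mp ((Finset.finite_toSet T).subset
    fun p hp => by
      by_contra hpT
      have : Fact p.Prime := ⟨hp.1⟩
      exact hp.2 (exists_zmod_of_padic hn (key p (h p hpT))))
  rcases h5 with ⟨b, hb⟩ | ⟨h8, b, hb⟩
  · refine ⟨b / a.den, ?_⟩
    rw [div_pow, ← Int.cast_pow, hb, e1, mul_div_cancel_right₀ _ (pow_ne_zero _ hz)]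
  · by_cases hb0 : b = 0
    · refine ⟨0, ?_⟩
      rw [hb0, zero_pow hn.ne', mul_zero] at hb
      rw [← hb, Int.cast_zero] at e1
      rw [zero_pow hn.ne']
      exact ((mul_eq_zero.mp e1.symm).resolve_right (pow_ne_zero _ hz)).symm
    exfalso
    obtain ⟨y, hy⟩ := key 2 h2
    have hb' : (b : ℚ_[2]) ≠ 0 := by exact_mod_cast hb0
    have h2n : 2 * (n / 2) = n := Nat.mul_div_cancel' ((by norm_num : 2 ∣ 8).trans h8)
    refine not_isSquare_padic_two (isSquare_or_of_pow_eq (z := y / b) (N := n / 2) (by omega) ?_)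
    rw [h2n, div_pow, hy, ← hb]
    push_cast
    rw [mul_div_cancel_right₀ _ (pow_ne_zero _ hb')]

/-- **The Hasse principle for `n`-th powers over `ℚ`**: no exception, if the place `2` is included. -/
theorem exists_pow_iff_padic {n : ℕ} (hn : 0 < n) (a : ℚ) :
    (∀ (p : ℕ) [Fact p.Prime], ∃ y : ℚ_[p], y ^ n = a) ↔ ∃ b : ℚ, b ^ n = a := by
  constructor
  · intro h
    exact exists_pow_of_padic hn a ∅ (h 2) fun p _ _ => h p
  · rintro ⟨b, rfl⟩ p _
    exact ⟨b, by push_cast; rfl⟩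

/-! ### The field `ℚ(√7)` -/

/-- `0 = i + i⁻¹`. -/
theorem isTwoCos_zero (F : Type*) [Field F] [CharZero F] : IsTwoCos 2 (0 : F) := by
  obtain ⟨η, hη⟩ := IsAlgClosed.exists_pow_nat_eq (-1 : AlgebraicClosure F) two_pos
  have : CharZero (AlgebraicClosure F) := charZero_of_injective_algebraMap
    (algebraMap F (AlgebraicClosure F)).injective
  have h0 : η ≠ 0 := by
    rintro rfl
    norm_num at hη
  have h1 : orderOf η = 2 ^ (1 + 1) := by
    apply orderOf_eq_prime_pow
    · rw [pow_one, hη]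
      norm_num
    · rw [pow_succ, pow_mul, pow_one, hη]
      norm_num
  have h2 := IsPrimitiveRoot.orderOf η
  rw [h1] at h2
  refine ⟨η, h2, ?_⟩
  rw [map_zero]
  field_simp
  linear_combination -hη

section Seven

variable {K : Type*} [Field K] [NumberField K] {θ : K}

/-- An integer congruent to `2` or `3` modulo `4` is not a square in `ℚ`. -/
theorem rat_sq_ne {d : ℤ} (hd : ∀ e : ZMod 4, e ^ 2 ≠ (d : ZMod 4)) (x : ℚ) : x ^ 2 ≠ d := by
  intro h
  obtain ⟨m, rfl⟩ := exists_int_of_pow two_pos h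
  have h1 : m ^ 2 = d := by exact_mod_cast h
  exact hd m (by rw [← h1]; push_cast; rfl)

theorem exists_coord (h2 : Module.finrank ℚ K = 2) (hθ : θ ^ 2 = 7) (w : K) :
    ∃ x y : ℚ, w = x + y * θ := by
  have hli : LinearIndependent ℚ ![(1 : K), θ] := by
    rw [LinearIndependent.pair_iff]
    intro s t hst
    rw [Algebra.smul_def, Algebra.smul_def, mul_one, eq_ratCast, eq_ratCast] at hst
    have ht : t = 0 := by
      by_contra ht
      have ht' : (t : K) ≠ 0 := by exact_mod_cast ht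
      have h1 : ((s / t : ℚ) : K) ^ 2 = ((7 : ℤ) : ℚ) := by
        have h3 : (s : K) = -(t * θ) := by linear_combination hst
        push_cast
        rw [h3, neg_div, mul_div_cancel_left₀ _ ht', neg_sq, hθ]
      exact rat_sq_ne (d := 7) (by decide) (s / t) (by exact_mod_cast h1)
    subst ht
    rw [Rat.cast_zero, zero_mul, add_zero] at hst
    exact ⟨by exact_mod_cast hst, rfl⟩
  have hspan := hli.span_eq_top_of_card_eq_finrank' (by rw [Fintype.card_fin, h2])
  have hw : w ∈ Submodule.span ℚ (Set.range ![(1 : K), θ]) := hspan ▸ Submodule.mem_top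
  rw [Matrix.range_cons, Matrix.range_cons, Matrix.range_empty, Set.union_empty,
    Set.singleton_union, Submodule.mem_span_pair] at hw
  obtain ⟨x, y, hxy⟩ := hw
  refine ⟨x, y, ?_⟩
  rw [← hxy, Algebra.smul_def, Algebra.smul_def, mul_one, eq_ratCast, eq_ratCast]

/-- A rational number which is a square in `ℚ(√7)` is `x²` or `7 x²`. -/
theorem sq_cases (h2 : Module.finrank ℚ K = 2) (hθ : θ ^ 2 = 7) {w : K} {d : ℚ}
    (hw : w ^ 2 = d) : ∃ x : ℚ, x ^ 2 = d ∨ 7 * x ^ 2 = d := by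
  obtain ⟨x, y, rfl⟩ := exists_coord h2 hθ w
  have h1 : ((x ^ 2 + 7 * y ^ 2 - d : ℚ) : K) + ((2 * x * y : ℚ) : K) * θ = 0 := by
    push_cast
    linear_combination hw - (y : K) ^ 2 * hθ
  have h3 : 2 * x * y = 0 := by
    by_contra h3
    have h3' : ((2 * x * y : ℚ) : K) ≠ 0 := by exact_mod_cast h3
    have h4 : (((x ^ 2 + 7 * y ^ 2 - d) / (2 * x * y) : ℚ) : K) ^ 2 = ((7 : ℤ) : ℚ) := by
      rw [Rat.cast_div, eq_neg_of_add_eq_zero_left h1, neg_div, mul_div_cancel_left₀ _ h3', neg_sq,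
        hθ]
      norm_num
    exact rat_sq_ne (d := 7) (by decide) _ (by exact_mod_cast h4)
  rw [h3, Rat.cast_zero, zero_mul, add_zero] at h1
  have h5 : x ^ 2 + 7 * y ^ 2 - d = 0 := by exact_mod_cast h1
  rcases mul_eq_zero.mp h3 with h6 | rfl
  · obtain rfl : x = 0 := by linarith
    exact ⟨y, Or.inr (by linarith)⟩
  · exact ⟨x, Or.inl (by linarith)⟩

/-- **Wang's counterexample** (1948). Let `K = ℚ(√7)`. Then `16` is an `8`-th power in all completions of
`K`, but not in `K`. -/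
theorem wang_seven (h2 : Module.finrank ℚ K = 2) (hθ : θ ^ 2 = 7) :
    (∀ v : HeightOneSpectrum (𝓞 K), ∃ y : v.adicCompletion K, y ^ 8 = 16) ∧
      (∀ w : InfinitePlace K, ∃ y : w.Completion, y ^ 8 = 16) ∧ ¬ ∃ b : K, b ^ 8 = 16 := by
  refine ⟨fun v => ?_, fun w => ?_, ?_⟩
  · have hsq : (2 : 𝓞 K) ∈ v.asIdeal → IsSquare (-1 : v.adicCompletion K) := by
      intro h2v
      have hv2 : v.valuation K ((2 : 𝓞 K) : K) < 1 :=
        (v.valuation_lt_one_iff_mem (K := K) _).mpr h2v
      have e2 : ((2 : 𝓞 K) : K) = 2 := map_ofNat (algebraMap (𝓞 K) K) 2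
      rw [e2] at hv2
      have hv20 : v.valuation K (2 : K) ≠ 0 := by
        rw [Valuation.ne_zero_iff]
        exact two_ne_zero
      have h7 : IsSquare (algebraMap K (v.adicCompletion K) (-7)) := by
        apply Fermat.Agent.Cor.HM.isSquare_of_near
        have e4 : (4 : v.adicCompletion K) = algebraMap K (v.adicCompletion K) (2 ^ 2) := by
          rw [map_pow, map_ofNat]
          norm_num
        rw [e4, ← map_one (algebraMap K (v.adicCompletion K)), ← map_sub,
          Fermat.Agent.LT.Ext.v_algebraMap, Fermat.Agent.LT.Ext.v_algebraMap,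
          show (-7 - 1 : K) = -(2 ^ 3) by norm_num, Valuation.map_neg, map_pow, map_pow]
        exact pow_lt_pow_right_of_lt_one₀ (zero_lt_iff.mpr hv20) hv2 (by norm_num)
      obtain ⟨u, hu⟩ := h7
      have hθ0 : θ ≠ 0 := by
        rintro rfl
        norm_num at hθ
      have hθ' : algebraMap K (v.adicCompletion K) θ ≠ 0 := by rwa [Ne, map_eq_zero]
      have hθ2 : algebraMap K (v.adicCompletion K) θ ^ 2 = algebraMap K (v.adicCompletion K) 7 := by
        rw [← map_pow, hθ]
      refine ⟨u / algebraMap K (v.adicCompletion K) θ, ?_⟩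
      rw [div_mul_div_comm, ← hu, ← pow_two, hθ2, map_neg, neg_div, div_self]
      rw [← hθ2]
      exact pow_ne_zero _ hθ'
    obtain ⟨y, hy⟩ := exists_pow_completion (v := v) (n := 8) le_rfl dvd_rfl (isTwoCos_zero K)
      fun h2v => Or.inl (hsq h2v)
    refine ⟨y, hy.trans ?_⟩
    rw [show ((2 + 0) ^ (8 / 2) : K) = 16 by norm_num, map_ofNat]
  · rcases w.isReal_or_isComplex with hw | hw
    · let e := InfinitePlace.Completion.ringEquivRealOfIsReal hw
      refine ⟨e.symm (Real.sqrt 2), ?_⟩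
      rw [← map_pow, show Real.sqrt 2 ^ 8 = (Real.sqrt 2 ^ 2) ^ 4 by ring,
        Real.sq_sqrt (by norm_num), show ((2 : ℝ) ^ 4) = 16 by norm_num, map_ofNat]
    · let e := InfinitePlace.Completion.ringEquivComplexOfIsComplex hw
      refine ⟨e.symm (1 + Complex.I), ?_⟩
      have h1 : (1 + Complex.I) ^ 2 = 2 * Complex.I := by linear_combination Complex.I_sq
      rw [← map_pow, show (1 + Complex.I) ^ 8 = ((1 + Complex.I) ^ 2) ^ 4 by ring, h1,
        show (2 * Complex.I) ^ 4 = 16 * (Complex.I ^ 2) ^ 2 by ring, Complex.I_sq,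
        show ((16 : ℂ) * (-1) ^ 2) = 16 by norm_num, map_ofNat]
  · rintro ⟨b, hb⟩
    have h1 : (b ^ 2 - 2) * (b ^ 2 + 2) * (((b + 1) ^ 2 + 1) * ((b - 1) ^ 2 + 1)) = 0 := by
      linear_combination hb
    rcases mul_eq_zero.mp h1 with h3 | h3 <;> rcases mul_eq_zero.mp h3 with h4 | h4
    · obtain ⟨x, hx | hx⟩ := sq_cases h2 hθ (w := b) (d := 2) (by push_cast; linear_combination h4)
      · exact rat_sq_ne (d := 2) (by decide) x (by exact_mod_cast hx)
      · exact rat_sq_ne (d := 14) (by decide) (7 * x) (by push_cast; linear_combination 7 * hx)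
    · obtain ⟨x, hx | hx⟩ := sq_cases h2 hθ (w := b) (d := -2) (by push_cast; linear_combination h4)
      · nlinarith [sq_nonneg x]
      · nlinarith [sq_nonneg x]
    · obtain ⟨x, hx | hx⟩ := sq_cases h2 hθ (w := b + 1) (d := -1)
        (by push_cast; linear_combination h4)
      · nlinarith [sq_nonneg x]
      · nlinarith [sq_nonneg x]
    · obtain ⟨x, hx | hx⟩ := sq_cases h2 hθ (w := b - 1) (d := -1)
        (by push_cast; linear_combination h4)
      · nlinarith [sq_nonneg x]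
      · nlinarith [sq_nonneg x]

end Seven

end Fermat.Agent.Cor.GW
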