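import Fermat.Agent.Corollaries.GW.Rad

/-!
# The exponents `2 ^ r`

`L / K` is a finite Galois extension containing a primitive `2 ^ r`-th root of unity, and every element
of `Gal(L/K)` fixes a `2 ^ r`-th root of `a`.

* `two_pow`: `a` is a `2 ^ r`-th power in `K`, or `a = (2 + η + η⁻¹) ^ (2 ^ (r - 1)) b ^ (2 ^ r)` with
  `b ∈ K` and a primitive `2 ^ s`-th root of unity `η`, `2 ≤ s < r`, with `η + η⁻¹ ∈ K`.
-/

set_option autoImplicit false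

namespace Fermat.Agent.Cor.GW

/-! ### The units modulo `2 ^ r` -/

/-- The units `≡ 1` modulo `2 ^ s`, `s ≥ 2`, are the powers of any `1 + 2 ^ s A`, `A` odd. -/
theorem mem_zpowers_of_mod {r s : ℕ} (hs : 2 ≤ s) (hr : s ≤ r) {u x : (ZMod (2 ^ r))ˣ}
    (hu : ∃ A : ℤ, Odd A ∧ (u : ZMod (2 ^ r)) = 1 + 2 ^ s * A)
    (hx : ∃ B : ℤ, (x : ZMod (2 ^ r)) = 1 + 2 ^ s * B) : x ∈ Subgroup.zpowers u := by
  obtain ⟨n, rfl⟩ := Nat.exists_eq_add_of_le' hr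
  have hdvd : 2 ^ s ∣ 2 ^ (n + s) := pow_dvd_pow _ (Nat.le_add_left _ _)
  have : NeZero (2 ^ (n + s)) := ⟨pow_ne_zero _ two_ne_zero⟩
  have : NeZero (2 ^ s) := ⟨pow_ne_zero _ two_ne_zero⟩
  let N : Subgroup (ZMod (2 ^ (n + s)))ˣ := (ZMod.unitsMap hdvd).ker
  have hmem : ∀ {y : (ZMod (2 ^ (n + s)))ˣ} {B : ℤ},
      (y : ZMod (2 ^ (n + s))) = 1 + 2 ^ s * B → y ∈ N := by
    intro y B hy
    rw [MonoidHom.mem_ker]
    apply Units.ext
    have h1 : ((ZMod.unitsMap hdvd y : (ZMod (2 ^ s))ˣ) : ZMod (2 ^ s)) =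
        ZMod.castHom hdvd (ZMod (2 ^ s)) (y : ZMod (2 ^ (n + s))) := rfl
    have h2 : ((2 : ZMod (2 ^ s)) ^ s) = 0 := by
      have := ZMod.natCast_self (2 ^ s)
      push_cast at this
      exact this
    rw [h1, hy, map_add, map_mul, map_one, map_pow, map_ofNat, map_intCast, h2, zero_mul,
      add_zero, Units.val_one]
  obtain ⟨A, hA, hu'⟩ := hu
  obtain ⟨B, hx'⟩ := hx
  have horder : orderOf u = 2 ^ n := by
    rw [← orderOf_injective _ Units.coeHom_injective u, Units.coeHom_apply, hu']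
    refine ZMod.orderOf_one_add_mul_prime_pow Nat.prime_two s (by omega) (by omega) A ?_ n
    rwa [← Int.not_even_iff_odd, even_iff_two_dvd] at hA
  have hcard : Nat.card N = 2 ^ n := by
    have h1 := Subgroup.card_mul_index N
    rw [Subgroup.index_ker, MonoidHom.range_eq_top.mpr (ZMod.unitsMap_surjective hdvd),
      Subgroup.card_top, Nat.card_eq_fintype_card (α := (ZMod (2 ^ s))ˣ),
      Nat.card_eq_fintype_card (α := (ZMod (2 ^ (n + s)))ˣ), ZMod.card_units_eq_totient,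
      ZMod.card_units_eq_totient, Nat.totient_prime_pow Nat.prime_two (by omega),
      Nat.totient_prime_pow Nat.prime_two (by omega), Nat.add_one_sub_one] at h1
    simp only [mul_one] at h1
    have h2 : 2 ^ (n + s - 1) = 2 ^ n * 2 ^ (s - 1) := by
      rw [← pow_add]
      congr 1
      omega
    exact Nat.eq_of_mul_eq_mul_right (pow_pos two_pos (s - 1)) (h1.trans h2)
  have hle : Subgroup.zpowers u ≤ N := by
    rw [Subgroup.zpowers_le]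
    exact hmem hu'
  have heq : Subgroup.zpowers u = N := by
    apply Subgroup.eq_of_le_of_card_ge hle
    rw [hcard, Nat.card_zpowers, horder]
  rw [heq]
  exact hmem hx'

/-! ### The Galois action on the roots of unity of order `2 ^ s` -/

section Root

variable {L : Type*} [Field L]

/-- A primitive root of order `2 ^ (s + 1)` has `2 ^ s`-th power `-1`. -/
theorem pow_eq_neg_one {s : ℕ} {η' : L} (hη' : IsPrimitiveRoot η' (2 ^ (s + 1))) :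
    η' ^ 2 ^ s = -1 := by
  have h1 : (η' ^ 2 ^ s) ^ 2 = 1 := by
    rw [← pow_mul, ← pow_succ]
    exact hη'.pow_eq_one
  have h0 : (η' ^ 2 ^ s - 1) * (η' ^ 2 ^ s + 1) = 0 := by linear_combination h1
  rcases mul_eq_zero.mp h0 with h | h
  · exfalso
    have h2 := hη'.dvd_of_pow_eq_one _ (sub_eq_zero.mp h)
    have h3 := Nat.le_of_dvd (pow_pos two_pos _) h2
    rw [pow_succ] at h3
    have := pow_pos (two_pos : 0 < 2) s
    omega
  · exact eq_neg_of_add_eq_zero_left h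

end Root

section Gal

variable {K L : Type*} [Field K] [Field L] [Algebra K L] {r s : ℕ} {ζ : L}
  (hζ : IsPrimitiveRoot ζ (2 ^ r))

include hζ in
theorem isPrimitiveRoot_eta (hs : s ≤ r) : IsPrimitiveRoot (ζ ^ 2 ^ (r - s)) (2 ^ s) :=
  hζ.pow (pow_pos two_pos _) (by rw [← pow_add]; congr 1; omega)

/-- The value of the character as an integer. -/
noncomputable def chi (hζ : IsPrimitiveRoot ζ (2 ^ r)) (τ : L ≃ₐ[K] L) : ℤ :=
  haveI : NeZero (2 ^ r) := ⟨pow_ne_zero _ two_ne_zero⟩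
  (((hζ.autToPow K τ : (ZMod (2 ^ r))ˣ) : ZMod (2 ^ r)).val : ℤ)

theorem coe_chi (τ : L ≃ₐ[K] L) : ((chi hζ τ : ℤ) : ZMod (2 ^ r)) =
    haveI : NeZero (2 ^ r) := ⟨pow_ne_zero _ two_ne_zero⟩
    ((hζ.autToPow K τ : (ZMod (2 ^ r))ˣ) : ZMod (2 ^ r)) := by
  have : NeZero (2 ^ r) := ⟨pow_ne_zero _ two_ne_zero⟩
  rw [chi, Int.cast_natCast, ZMod.natCast_zmod_val]

include hζ in
theorem zpow_chi (τ : L ≃ₐ[K] L) : ζ ^ chi hζ τ = τ ζ := by
  have : NeZero (2 ^ r) := ⟨pow_ne_zero _ two_ne_zero⟩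
  rw [chi, zpow_natCast]
  exact hζ.autToPow_spec K τ

theorem zpow_chi' (τ : L ≃ₐ[K] L) (k : ℕ) : (ζ ^ k) ^ chi hζ τ = τ (ζ ^ k) := by
  rw [map_pow, ← zpow_chi hζ τ, ← zpow_natCast ζ k, ← zpow_mul, mul_comm, zpow_mul,
    zpow_natCast]

include hζ in
/-- The character of an element which fixes `η`. -/
theorem exists_eq_of_fix (hs : s ≤ r) {τ : L ≃ₐ[K] L}
    (hτ : τ (ζ ^ 2 ^ (r - s)) = ζ ^ 2 ^ (r - s)) : ∃ B : ℤ, chi hζ τ = 1 + 2 ^ s * B := by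
  have hη := isPrimitiveRoot_eta hζ hs
  have hη0 : ζ ^ 2 ^ (r - s) ≠ 0 := hη.ne_zero (pow_ne_zero _ two_ne_zero)
  have h1 : (ζ ^ 2 ^ (r - s)) ^ (chi hζ τ - 1) = 1 := by
    rw [zpow_sub_one₀ hη0, zpow_chi', hτ, mul_inv_cancel₀ hη0]
  obtain ⟨B, hB⟩ := (hη.zpow_eq_one_iff_dvd _).mp h1
  push_cast at hB
  exact ⟨B, by omega⟩

include hζ in
/-- The character of an element which fixes `η` but not its square root. -/
theorem exists_odd_of_neg (hs : s + 1 ≤ r) {τ : L ≃ₐ[K] L}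
    (hτ : τ (ζ ^ 2 ^ (r - (s + 1))) = -ζ ^ 2 ^ (r - (s + 1))) :
    ∃ A : ℤ, Odd A ∧ chi hζ τ = 1 + 2 ^ s * A := by
  have hη := isPrimitiveRoot_eta hζ hs
  set η := ζ ^ 2 ^ (r - (s + 1)) with hηdef
  have hη0 : η ≠ 0 := hη.ne_zero (pow_ne_zero _ two_ne_zero)
  have h1 : η ^ (chi hζ τ - 1 - 2 ^ s) = 1 := by
    have h2 : η ^ ((2 : ℤ) ^ s) = -1 := by
      have h3 := pow_eq_neg_one hη
      rw [← zpow_natCast] at h3
      push_cast at h3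
      exact h3
    rw [zpow_sub₀ hη0, zpow_sub_one₀ hη0, zpow_chi' hζ τ, ← hηdef, hτ, h2, neg_mul,
      mul_inv_cancel₀ hη0, div_self (neg_ne_zero.mpr one_ne_zero)]
  obtain ⟨B, hB⟩ := (hη.zpow_eq_one_iff_dvd _).mp h1
  refine ⟨1 + 2 * B, ⟨B, by ring⟩, ?_⟩
  push_cast at hB
  linear_combination hB

include hζ in
/-- The character of an element which inverts `η` but not its square root. -/
theorem exists_odd_of_neg_inv (hs : s + 1 ≤ r) {τ : L ≃ₐ[K] L}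
    (hτ : τ (ζ ^ 2 ^ (r - (s + 1))) = -(ζ ^ 2 ^ (r - (s + 1)))⁻¹) :
    ∃ A : ℤ, Odd A ∧ chi hζ τ = -1 + 2 ^ s * A := by
  have hη := isPrimitiveRoot_eta hζ hs
  set η := ζ ^ 2 ^ (r - (s + 1)) with hηdef
  have hη0 : η ≠ 0 := hη.ne_zero (pow_ne_zero _ two_ne_zero)
  have h1 : η ^ (chi hζ τ + 1 - 2 ^ s) = 1 := by
    have h2 : η ^ ((2 : ℤ) ^ s) = -1 := by
      have h3 := pow_eq_neg_one hη
      rw [← zpow_natCast] at h3
      push_cast at h3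
      exact h3
    rw [zpow_sub₀ hη0, zpow_add_one₀ hη0, zpow_chi' hζ τ, ← hηdef, hτ, h2, neg_mul,
      inv_mul_cancel₀ hη0, div_self (neg_ne_zero.mpr one_ne_zero)]
  obtain ⟨B, hB⟩ := (hη.zpow_eq_one_iff_dvd _).mp h1
  refine ⟨1 + 2 * B, ⟨B, by ring⟩, ?_⟩
  push_cast at hB
  linear_combination hB

/-- The group generated by the character of `τ₁`. -/
theorem mem_zpowers_chi (hs : 2 ≤ s) (hr : s ≤ r) {τ₁ τ : L ≃ₐ[K] L}
    (h1 : ∃ A : ℤ, Odd A ∧ chi hζ τ₁ = 1 + 2 ^ s * A) (h2 : ∃ B : ℤ, chi hζ τ = 1 + 2 ^ s * B) :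
    haveI : NeZero (2 ^ r) := ⟨pow_ne_zero _ two_ne_zero⟩
    hζ.autToPow K τ ∈ Subgroup.zpowers (hζ.autToPow K τ₁) := by
  obtain ⟨A, hA, h1⟩ := h1
  obtain ⟨B, h2⟩ := h2
  refine mem_zpowers_of_mod hs hr ⟨A, hA, ?_⟩ ⟨B, ?_⟩
  · rw [← coe_chi hζ, h1]
    push_cast
    ring
  · rw [← coe_chi hζ, h2]
    push_cast
    ring

/-- The same for the square of `τ₁`. -/
theorem mem_zpowers_chi_sq (hs : 2 ≤ s) (hr : s + 1 ≤ r) {τ₁ τ : L ≃ₐ[K] L}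
    (h1 : ∃ A : ℤ, Odd A ∧ chi hζ τ₁ = -1 + 2 ^ s * A)
    (h2 : ∃ B : ℤ, chi hζ τ = 1 + 2 ^ (s + 1) * B) :
    haveI : NeZero (2 ^ r) := ⟨pow_ne_zero _ two_ne_zero⟩
    hζ.autToPow K τ ∈ Subgroup.zpowers (hζ.autToPow K τ₁) := by
  have : NeZero (2 ^ r) := ⟨pow_ne_zero _ two_ne_zero⟩
  obtain ⟨A, hA, h1⟩ := h1
  obtain ⟨B, h2⟩ := h2
  have h3 : hζ.autToPow K τ ∈ Subgroup.zpowers (hζ.autToPow K τ₁ ^ 2) := by
    refine mem_zpowers_of_mod (s := s + 1) (by omega) hr ⟨-A + 2 * (2 ^ (s - 2) * A ^ 2), ?_, ?_⟩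
      ⟨B, ?_⟩
    · exact hA.neg.add_even (even_two_mul _)
    · obtain ⟨m, rfl⟩ := Nat.exists_eq_add_of_le hs
      rw [Units.val_pow_eq_pow_val, ← coe_chi hζ, h1, Nat.add_sub_cancel_left]
      push_cast
      ring
    · rw [← coe_chi hζ, h2]
      push_cast
      ring
  exact (Subgroup.zpowers_le.mpr (Subgroup.pow_mem _ (Subgroup.mem_zpowers _) 2)) h3

end Gal

section Fixed

variable {K L : Type*} [Field K] [Field L] [Algebra K L]

theorem inv_apply_apply (σ : L ≃ₐ[K] L) (x : L) : σ⁻¹ (σ x) = x := by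
  rw [← AlgEquiv.mul_apply, inv_mul_cancel, AlgEquiv.one_apply]

theorem apply_inv_apply (σ : L ≃ₐ[K] L) (x : L) : σ (σ⁻¹ x) = x := by
  rw [← AlgEquiv.mul_apply, mul_inv_cancel, AlgEquiv.one_apply]

/-- If every element acts on `η` as `± 1`, then an element fixed by the elements which fix `η` and by
one which inverts `η` is fixed by all. -/
theorem fixed_of {η x : L} (hP : ∀ τ : L ≃ₐ[K] L, τ η = η ∨ τ η = η⁻¹)
    (hU : ∀ τ : L ≃ₐ[K] L, τ η = η → τ x = x) {σ : L ≃ₐ[K] L} (hσ : σ η = η⁻¹) (hσx : σ x = x)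
    (τ : L ≃ₐ[K] L) : τ x = x := by
  rcases hP τ with h | h
  · exact hU τ h
  · have h1 : (σ⁻¹ * τ) η = η := by
      rw [AlgEquiv.mul_apply, h, ← hσ, inv_apply_apply]
    have h2 := hU _ h1
    rw [AlgEquiv.mul_apply] at h2
    have h3 := congrArg σ h2
    rw [apply_inv_apply, hσx] at h3
    exact h3

end Fixed

section Main

variable {K L : Type*} [Field K] [Field L] [Algebra K L] [FiniteDimensional K L] [IsGalois K L]
  {r : ℕ} {ζ : L} (hζ : IsPrimitiveRoot ζ (2 ^ r)) {a : L} (h : FixRoot K (2 ^ r) a) (ha : a ≠ 0)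

omit [FiniteDimensional K L] [IsGalois K L] in
include hζ in
/-- The action on the fourth roots of unity. -/
theorem apply_two (hr : 2 ≤ r) (τ : L ≃ₐ[K] L) :
    τ (ζ ^ 2 ^ (r - 2)) = ζ ^ 2 ^ (r - 2) ∨ τ (ζ ^ 2 ^ (r - 2)) = (ζ ^ 2 ^ (r - 2))⁻¹ := by
  have hη := isPrimitiveRoot_eta hζ hr
  set i := ζ ^ 2 ^ (r - 2) with hi
  have h1 : i ^ 2 = -1 := by
    have := pow_eq_neg_one (s := 1) hη
    simpa using this
  have h2 : (τ i) ^ 2 = i ^ 2 := by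
    rw [← map_pow, h1, map_neg, map_one]
  rcases sq_eq_sq_iff_eq_or_eq_neg.mp h2 with h3 | h3
  · exact Or.inl h3
  · right
    rw [h3]
    exact eq_inv_of_mul_eq_one_left (by linear_combination -h1)

include hζ h ha in
/-- The case where the whole group acts on `ζ` as `± 1`. -/
theorem exists_pow_of_pm (hP : ∀ τ : L ≃ₐ[K] L, τ ζ = ζ ∨ τ ζ = ζ⁻¹) :
    ∃ b : K, algebraMap K L b ^ 2 ^ r = a := by
  have : NeZero (2 ^ r) := ⟨pow_ne_zero _ two_ne_zero⟩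
  have htriv : ∀ τ : L ≃ₐ[K] L, τ ζ = ζ → hζ.autToPow K τ = 1 := by
    intro τ hτ
    obtain ⟨B, hB⟩ := exists_eq_of_fix hζ (s := r) le_rfl (τ := τ) (by simpa using hτ)
    apply Units.ext
    have h2 : ((2 : ZMod (2 ^ r)) ^ r) = 0 := by
      have := ZMod.natCast_self (2 ^ r)
      push_cast at this
      exact this
    rw [← coe_chi hζ, hB, Units.val_one]
    push_cast
    rw [h2, zero_mul, add_zero]
  by_cases hall : ∀ τ : L ≃ₐ[K] L, τ ζ = ζ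
  · obtain ⟨β, hβ, -⟩ := h 1
    obtain ⟨b, rfl⟩ := (IsGalois.mem_range_algebraMap_iff_fixed β).mpr fun τ =>
      apply_root_eq hζ h ha (htriv τ (hall τ)) hβ
    exact ⟨b, hβ⟩
  · push Not at hall
    obtain ⟨σ, hσ⟩ := hall
    have hσ' := (hP σ).resolve_left hσ
    obtain ⟨β, hβ, hfix⟩ := h σ
    obtain ⟨b, rfl⟩ := (IsGalois.mem_range_algebraMap_iff_fixed β).mpr
      (fixed_of hP (fun τ hτ => apply_root_eq hζ h ha (htriv τ hτ) hβ) hσ' hfix)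
    exact ⟨b, hβ⟩

include hζ h ha in
/-- The case of an element with character `-1 + 2 ^ s A`, `A` odd. -/
theorem exists_pow_of_neg_inv {s : ℕ} (hs : 2 ≤ s) (hsr : s + 1 ≤ r)
    (hP : ∀ τ : L ≃ₐ[K] L, τ (ζ ^ 2 ^ (r - s)) = ζ ^ 2 ^ (r - s) ∨
      τ (ζ ^ 2 ^ (r - s)) = (ζ ^ 2 ^ (r - s))⁻¹)
    (hno : ∀ τ : L ≃ₐ[K] L, τ (ζ ^ 2 ^ (r - s)) = ζ ^ 2 ^ (r - s) →
      τ (ζ ^ 2 ^ (r - (s + 1))) = ζ ^ 2 ^ (r - (s + 1)))
    {τ₁ : L ≃ₐ[K] L} (hτ₁ : τ₁ (ζ ^ 2 ^ (r - (s + 1))) = -(ζ ^ 2 ^ (r - (s + 1)))⁻¹)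
    (hτ₁' : τ₁ (ζ ^ 2 ^ (r - s)) = (ζ ^ 2 ^ (r - s))⁻¹) :
    ∃ b : K, algebraMap K L b ^ 2 ^ r = a := by
  have : NeZero (2 ^ r) := ⟨pow_ne_zero _ two_ne_zero⟩
  obtain ⟨β, hβ, hfix⟩ := h τ₁
  have hU : ∀ τ : L ≃ₐ[K] L, τ (ζ ^ 2 ^ (r - s)) = ζ ^ 2 ^ (r - s) → τ β = β := by
    intro τ hτ
    refine apply_eq_of_pow hζ h ha hβ hfix ?_
    exact mem_zpowers_chi_sq hζ hs hsr (exists_odd_of_neg_inv hζ hsr hτ₁)
      (exists_eq_of_fix hζ hsr (hno τ hτ))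
  obtain ⟨b, rfl⟩ := (IsGalois.mem_range_algebraMap_iff_fixed β).mpr
    (fixed_of hP hU hτ₁' hfix)
  exact ⟨b, hβ⟩

include hζ h ha in
/-- The case of an element with character `1 + 2 ^ s A`, `A` odd: the special case. -/
theorem special {s : ℕ} (hs : 2 ≤ s) (hsr : s + 1 ≤ r)
    (hP : ∀ τ : L ≃ₐ[K] L, τ (ζ ^ 2 ^ (r - s)) = ζ ^ 2 ^ (r - s) ∨
      τ (ζ ^ 2 ^ (r - s)) = (ζ ^ 2 ^ (r - s))⁻¹)
    {τ₁ : L ≃ₐ[K] L} (hτ₁ : τ₁ (ζ ^ 2 ^ (r - (s + 1))) = -ζ ^ 2 ^ (r - (s + 1))) :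
    (∃ b : K, algebraMap K L b ^ 2 ^ r = a) ∨
      ∃ c b : K, algebraMap K L c = ζ ^ 2 ^ (r - s) + (ζ ^ 2 ^ (r - s))⁻¹ ∧
        algebraMap K L (2 + c) ^ 2 ^ (r - 1) * algebraMap K L b ^ 2 ^ r = a := by
  have : NeZero (2 ^ r) := ⟨pow_ne_zero _ two_ne_zero⟩
  have hη := isPrimitiveRoot_eta hζ (s := s) (by omega)
  obtain ⟨A, hA, hchi⟩ := exists_odd_of_neg hζ hsr hτ₁
  obtain ⟨β, hβ, hfix⟩ := h τ₁
  have hβ0 : β ≠ 0 := by
    rintro rfl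
    rw [zero_pow (pow_ne_zero _ two_ne_zero)] at hβ
    exact ha hβ.symm
  set η := ζ ^ 2 ^ (r - s) with hηdef
  have hη0 : η ≠ 0 := hη.ne_zero (pow_ne_zero _ two_ne_zero)
  have hU : ∀ τ : L ≃ₐ[K] L, τ η = η → τ β = β := by
    intro τ hτ
    refine apply_eq_of_pow hζ h ha hβ hfix ?_
    exact mem_zpowers_chi hζ hs (by omega) ⟨A, hA, hchi⟩
      (exists_eq_of_fix hζ (by omega) hτ)
  by_cases hall : ∀ τ : L ≃ₐ[K] L, τ η = η
  · obtain ⟨b, rfl⟩ := (IsGalois.mem_range_algebraMap_iff_fixed β).mpr fun τ => hU τ (hall τ)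
    exact Or.inl ⟨b, hβ⟩
  push Not at hall
  obtain ⟨σ, hσ⟩ := hall
  have hσ' : σ η = η⁻¹ := (hP σ).resolve_left hσ
  -- `τ₁` fixes `σ β`
  have hτη : τ₁ η = η := by
    have e : η = (ζ ^ 2 ^ (r - (s + 1))) ^ 2 := by
      rw [hηdef, ← pow_mul, ← pow_succ]
      congr 2
      omega
    rw [e, map_pow, hτ₁, neg_sq]
  have hσβ : τ₁ (σ β) = σ β := by
    have h1 : (σ⁻¹ * τ₁ * σ) η = η := by
      rw [AlgEquiv.mul_apply, AlgEquiv.mul_apply, hσ', map_inv₀, hτη, ← hσ', inv_apply_apply]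
    have h2 := congrArg σ (hU _ h1)
    rw [AlgEquiv.mul_apply, AlgEquiv.mul_apply, apply_inv_apply] at h2
    exact h2
  -- `σ β = η ^ j β`
  obtain ⟨j, hj⟩ : ∃ j : ℤ, σ β = η ^ j * β := by
    have h1 : (σ β / β) ^ 2 ^ r = 1 := by
      rw [div_pow, ← map_pow, hβ, div_eq_one_iff_eq ha]
      rw [← hβ, map_pow]
      have h3 : (σ β) ^ 2 ^ r = β ^ 2 ^ r := by
        obtain ⟨β', hβ', hfix'⟩ := h σ
        rw [← map_pow, hβ, ← hβ', map_pow, hfix']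
      exact h3
    obtain ⟨i, -, hi⟩ := hζ.eq_pow_of_pow_eq_one h1
    have h2 : τ₁ (ζ ^ i) = ζ ^ i := by
      rw [hi, map_div₀, hσβ, hfix]
    have hζ0 : ζ ≠ 0 := hζ.ne_zero (pow_ne_zero _ two_ne_zero)
    have h3 : ζ ^ ((i : ℤ) * (2 ^ s * A)) = 1 := by
      have h4 : ζ ^ ((i : ℤ) * (2 ^ s * A)) = (ζ ^ i) ^ (chi hζ τ₁) / ζ ^ i := by
        rw [hchi, ← zpow_natCast ζ i, ← zpow_mul, ← zpow_sub₀ hζ0]
        congr 1
        ring
      rw [h4, zpow_chi', h2, div_self (pow_ne_zero _ hζ0)]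
    have h5 := (hζ.zpow_eq_one_iff_dvd _).mp h3
    have h6 : ((2 : ℤ) ^ (r - s)) ∣ i := by
      have h7 : ((2 ^ r : ℕ) : ℤ) = 2 ^ s * 2 ^ (r - s) := by
        push_cast
        rw [← pow_add]
        congr 1
        omega
      have h8 : (i : ℤ) * (2 ^ s * A) = 2 ^ s * (i * A) := by ring
      rw [h7, h8] at h5
      have h9 := (mul_dvd_mul_iff_left (pow_ne_zero s (two_ne_zero : (2 : ℤ) ≠ 0))).mp h5
      refine IsCoprime.dvd_of_dvd_mul_right ?_ h9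
      refine IsCoprime.pow_left ?_
      obtain ⟨m, hm⟩ := hA
      exact ⟨-m, 1, by rw [hm]; ring⟩
    obtain ⟨j, hj⟩ := h6
    refine ⟨j, ?_⟩
    have h10 : ζ ^ i = η ^ j := by
      rw [hηdef, ← zpow_natCast ζ i, hj, ← zpow_natCast ζ (2 ^ (r - s)), ← zpow_mul]
      push_cast
      rfl
    rw [← h10, hi, div_mul_cancel₀ _ hβ0]
  have hηq : ∀ l : ℤ, (η ^ l) ^ 2 ^ r = 1 := by
    intro l
    rw [← zpow_natCast, ← zpow_mul, mul_comm, zpow_mul, zpow_natCast]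
    have h1 : η ^ 2 ^ r = 1 := by
      rw [hηdef, ← pow_mul, mul_comm, pow_mul, hζ.pow_eq_one, one_pow]
    rw [h1, one_zpow]
  rcases Int.even_or_odd' j with ⟨l, hl | hl⟩
  · -- `b = η ^ l β`
    left
    have hb : ∀ τ : L ≃ₐ[K] L, τ (η ^ l * β) = η ^ l * β := by
      refine fixed_of hP (fun τ hτ => ?_) hσ' ?_
      · rw [map_mul, map_zpow₀, hτ, hU τ hτ]
      · rw [map_mul, map_zpow₀, hσ', hj, hl, ← mul_assoc, inv_zpow', ← zpow_add₀ hη0]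
        congr 2
        ring
    obtain ⟨b, hb'⟩ := (IsGalois.mem_range_algebraMap_iff_fixed _).mpr hb
    refine ⟨b, ?_⟩
    rw [hb', mul_pow, hηq, one_mul, hβ]
  · -- `b = η ^ (l + 1) β / (1 + η)`
    right
    have h1η : 1 + η ≠ 0 := by
      intro h0
      have h1 : η = -1 := by linear_combination h0
      have h2 : η ^ 2 = 1 := by rw [h1]; norm_num
      have h3 := Nat.le_of_dvd two_pos (hη.dvd_of_pow_eq_one _ h2)
      have h4 : 2 ^ 2 ≤ 2 ^ s := Nat.pow_le_pow_right two_pos hs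
      omega
    have hb : ∀ τ : L ≃ₐ[K] L, τ (η ^ (l + 1) * β / (1 + η)) = η ^ (l + 1) * β / (1 + η) := by
      refine fixed_of hP (fun τ hτ => ?_) hσ' ?_
      · rw [map_div₀, map_mul, map_zpow₀, map_add, map_one, hτ, hU τ hτ]
      · rw [map_div₀, map_mul, map_zpow₀, map_add, map_one, hσ', hj, hl]
        have e : 1 + η⁻¹ = η⁻¹ * (1 + η) := by
          rw [mul_add, mul_one, inv_mul_cancel₀ hη0]
          ring
        rw [e, ← mul_assoc, inv_zpow', ← zpow_add₀ hη0, mul_comm η⁻¹, ← div_div, div_right_comm,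
          div_inv_eq_mul]
        rw [div_left_inj' h1η]
        rw [mul_right_comm, ← zpow_add_one₀ hη0]
        congr 2
        ring
    obtain ⟨b, hb'⟩ := (IsGalois.mem_range_algebraMap_iff_fixed _).mpr hb
    have hc : ∀ τ : L ≃ₐ[K] L, τ (η + η⁻¹) = η + η⁻¹ := by
      refine fixed_of hP (fun τ hτ => ?_) hσ' ?_
      · rw [map_add, map_inv₀, hτ]
      · rw [map_add, map_inv₀, hσ', inv_inv, add_comm]
    obtain ⟨c, hc'⟩ := (IsGalois.mem_range_algebraMap_iff_fixed _).mpr hc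
    refine ⟨c, b, hc', ?_⟩
    have h2 : algebraMap K L (2 + c) = (1 + η) ^ 2 * η⁻¹ := by
      rw [map_add, hc', map_ofNat]
      field_simp
      ring
    have h3 : (2 : ℕ) ^ r = 2 * 2 ^ (r - 1) := by
      rw [← pow_succ']
      congr 1
      omega
    have h4 : η ^ 2 ^ (r - 1) = 1 := by
      have h5 : 2 ^ s ∣ 2 ^ (r - 1) := pow_dvd_pow _ (by omega)
      exact (hη.pow_eq_one_iff_dvd _).mpr h5
    have h6 : algebraMap K L (2 + c) ^ 2 ^ (r - 1) = (1 + η) ^ 2 ^ r := by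
      rw [h2, mul_pow, inv_pow, h4, inv_one, mul_one, ← pow_mul, ← h3]
    rw [h6, hb', ← mul_pow, mul_div_cancel₀ _ h1η, mul_pow, hηq, one_mul, hβ]

include hζ h ha in
/-- **The exponents `2 ^ r`.** -/
theorem two_pow : (∃ b : K, algebraMap K L b ^ 2 ^ r = a) ∨
    ∃ s : ℕ, 2 ≤ s ∧ s < r ∧ ∃ (η : L) (c b : K), IsPrimitiveRoot η (2 ^ s) ∧
      algebraMap K L c = η + η⁻¹ ∧
      algebraMap K L (2 + c) ^ 2 ^ (r - 1) * algebraMap K L b ^ 2 ^ r = a := by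
  have : NeZero (2 ^ r) := ⟨pow_ne_zero _ two_ne_zero⟩
  by_cases hr : r ≤ 2
  · left
    have hcyc : IsCyclic (ZMod (2 ^ r))ˣ := (ZMod.isCyclic_units_two_pow_iff r).mpr hr
    exact exists_pow_of_isCyclic hζ h ha inferInstance
  let P : ℕ → Prop := fun s => ∀ τ : L ≃ₐ[K] L, τ (ζ ^ 2 ^ (r - s)) = ζ ^ 2 ^ (r - s) ∨
      τ (ζ ^ 2 ^ (r - s)) = (ζ ^ 2 ^ (r - s))⁻¹
  have key : ∃ s, 2 ≤ s ∧ s ≤ r ∧ P s ∧ (s < r → ¬ P (s + 1)) := by
    by_cases hall : ∀ s, 2 ≤ s → s < r → P s → P (s + 1)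
    · refine ⟨r, by omega, le_rfl, ?_, fun h => absurd h (lt_irrefl _)⟩
      have : ∀ s, 2 ≤ s → s ≤ r → P s := by
        intro s hs
        induction s, hs using Nat.le_induction with
        | base => intro _; exact apply_two hζ (by omega)
        | succ m hm ih => intro hmr; exact hall m hm (by omega) (ih (by omega))
      exact this r (by omega) le_rfl
    · push Not at hall
      obtain ⟨s, h1, h2, h3, h4⟩ := hall
      exact ⟨s, h1, h2.le, h3, fun _ => h4⟩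
  obtain ⟨s, hs, hsr, hP, hmax⟩ := key
  rcases hsr.eq_or_lt with rfl | hlt
  · left
    refine exists_pow_of_pm hζ h ha fun τ => ?_
    have h1 := hP τ
    simpa using h1
  have hnot := hmax hlt
  have hη' := isPrimitiveRoot_eta hζ (s := s + 1) (by omega)
  -- the possible values on the square root of `η`
  have e : ζ ^ 2 ^ (r - s) = (ζ ^ 2 ^ (r - (s + 1))) ^ 2 := by
    rw [← pow_mul, ← pow_succ]
    congr 2
    omega
  have hval : ∀ τ : L ≃ₐ[K] L,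
      (τ (ζ ^ 2 ^ (r - s)) = ζ ^ 2 ^ (r - s) → τ (ζ ^ 2 ^ (r - (s + 1))) = ζ ^ 2 ^ (r - (s + 1)) ∨
        τ (ζ ^ 2 ^ (r - (s + 1))) = -ζ ^ 2 ^ (r - (s + 1))) ∧
      (τ (ζ ^ 2 ^ (r - s)) = (ζ ^ 2 ^ (r - s))⁻¹ →
        τ (ζ ^ 2 ^ (r - (s + 1))) = (ζ ^ 2 ^ (r - (s + 1)))⁻¹ ∨
        τ (ζ ^ 2 ^ (r - (s + 1))) = -(ζ ^ 2 ^ (r - (s + 1)))⁻¹) := by
    intro τ
    constructor
    · intro h1
      rw [e, map_pow] at h1
      exact sq_eq_sq_iff_eq_or_eq_neg.mp h1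
    · intro h1
      rw [e, map_pow, ← inv_pow] at h1
      exact sq_eq_sq_iff_eq_or_eq_neg.mp h1
  by_cases hB1 : ∃ τ₁ : L ≃ₐ[K] L, τ₁ (ζ ^ 2 ^ (r - (s + 1))) = -ζ ^ 2 ^ (r - (s + 1))
  · obtain ⟨τ₁, hτ₁⟩ := hB1
    rcases special hζ h ha hs hlt hP hτ₁ with h1 | ⟨c, b, h1, h2⟩
    · exact Or.inl h1
    · exact Or.inr ⟨s, hs, hlt, _, c, b, isPrimitiveRoot_eta hζ (by omega), h1, h2⟩
  · push Not at hB1
    left
    obtain ⟨τ₁, hτ₁⟩ : ∃ τ₁ : L ≃ₐ[K] L, τ₁ (ζ ^ 2 ^ (r - s)) = (ζ ^ 2 ^ (r - s))⁻¹ ∧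
        τ₁ (ζ ^ 2 ^ (r - (s + 1))) = -(ζ ^ 2 ^ (r - (s + 1)))⁻¹ := by
      by_contra hcon
      push Not at hcon
      apply hnot
      intro τ
      rcases hP τ with h1 | h1
      · exact Or.inl (((hval τ).1 h1).resolve_right (hB1 τ))
      · exact Or.inr (((hval τ).2 h1).resolve_right (hcon τ h1))
    exact exists_pow_of_neg_inv hζ h ha hs hlt hP
      (fun τ h1 => ((hval τ).1 h1).resolve_right (hB1 τ)) hτ₁.2 hτ₁.1

end Main

end Fermat.Agent.Cor.GW
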